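import Fermat.Agent.X0Places.ModFun
import Fermat.Agent.ModPoly.Orders

/-!
# The modular unit `Δ(τ)/Δ(Nτ)` as a holomorphic modular function on `Γ₀(N)`
-/

set_option autoImplicit false

noncomputable section

open UpperHalfPlane Function ModularCurve Filter ModularForm
open scoped Manifold MatrixGroups Topology ModularForm

namespace Fermat.Agent.MzCusp

open Function.Periodic (qParam)
open Fermat.Agent.X0Places

section Trans

theorem disc_smul (γ : SL(2, ℤ)) (τ : ℍ) :
    ModularForm.discriminant (γ • τ) =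
      ((γ 1 0 : ℂ) * τ + γ 1 1) ^ 12 * ModularForm.discriminant τ := by
  have h1 := discriminant_eq_E₄_cube_sub_E₆_sq (γ • τ)
  have h2 := discriminant_eq_E₄_cube_sub_E₆_sq τ
  have h4 := Fermat.Agent.JInv.form_smul E₄ γ τ
  have h6 := Fermat.Agent.JInv.form_smul E₆ γ τ
  rw [Fermat.Agent.JInv.denom_eq] at h4 h6
  rw [h1, h2, h4, h6]
  have e4 : ((γ 1 0 : ℂ) * τ + γ 1 1) ^ (4 : ℤ) = ((γ 1 0 : ℂ) * τ + γ 1 1) ^ 4 := by
    exact_mod_cast rfl
  have e6 : ((γ 1 0 : ℂ) * τ + γ 1 1) ^ (6 : ℤ) = ((γ 1 0 : ℂ) * τ + γ 1 1) ^ 6 := by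
    exact_mod_cast rfl
  rw [e4, e6]
  ring

/-- `diag(d,1) γ = γ' (A B; 0 D)`, with the automorphy factors -/
theorem exists_decomp' (d : ℕ) (hd : 0 < d) (γ : SL(2, ℤ)) :
    ∃ (γ' : SL(2, ℤ)) (A D : ℕ) (B : ℤ) (hA : 0 < A) (hD : 0 < D), A * D = d ∧
      ∀ τ : ℍ, scaleH d hd (γ • τ) = γ' • affH A D B hA hD τ ∧
        (γ' 1 0 : ℂ) * (affH A D B hA hD τ : ℂ) + γ' 1 1 =
          ((γ 1 0 : ℂ) * τ + γ 1 1) / D := by
  have hdet := Fermat.Agent.JInv.det_eq γ
  set a := γ 0 0
  set b := γ 0 1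
  set c := γ 1 0
  set e := γ 1 1
  have hd' : (0 : ℤ) < d := by exact_mod_cast hd
  have hne : ¬ ((d : ℤ) * a = 0 ∧ c = 0) := by
    rintro ⟨h1, h2⟩
    rcases mul_eq_zero.1 h1 with h | h
    · omega
    · rw [h, h2] at hdet; simp at hdet
  set A := Int.gcd ((d : ℤ) * a) c with hAdef
  have hA : 0 < A := by
    rw [hAdef, Int.gcd_pos_iff]
    by_contra hcon
    push Not at hcon
    exact hne hcon
  obtain ⟨x, hx⟩ : (A : ℤ) ∣ (d : ℤ) * a := Int.gcd_dvd_left _ _
  obtain ⟨y, hy⟩ : (A : ℤ) ∣ c := Int.gcd_dvd_right _ _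
  have hbez := Int.gcd_eq_gcd_ab ((d : ℤ) * a) c
  rw [← hAdef] at hbez
  set v := Int.gcdA ((d : ℤ) * a) c
  set u' := Int.gcdB ((d : ℤ) * a) c
  have hA' : (0 : ℤ) < A := by exact_mod_cast hA
  have hxy : x * v + y * u' = 1 := by
    have h1 : (A : ℤ) * (x * v + y * u') = A * 1 := by
      rw [mul_one]
      conv_rhs => rw [hbez, hx]
      conv_rhs => rw [hy]
      ring
    exact mul_left_cancel₀ hA'.ne' h1
  -- γ' = (x, -u'; y, v)
  set D0 : ℤ := x * e - y * (d * b) with hD0
  have hAD : (A : ℤ) * D0 = d := by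
    rw [hD0, mul_sub]
    have h1 : (A : ℤ) * (x * e) = d * a * e := by rw [← mul_assoc, ← hx]
    have h2 : (A : ℤ) * (y * (d * b)) = c * (d * b) := by rw [← mul_assoc, ← hy]
    rw [h1, h2]
    linear_combination (d : ℤ) * hdet
  have hD0pos : 0 < D0 := by
    rw [← hAD] at hd'
    exact (mul_pos_iff_of_pos_left hA').1 hd'
  obtain ⟨D, hD⟩ := Int.eq_ofNat_of_zero_le hD0pos.le
  have hDpos : 0 < D := by omega
  set B : ℤ := v * (d * b) + u' * e with hB
  refine ⟨mkSL x (-u') y v (by linear_combination hxy), A, D, B, hA, hDpos, ?_, ?_⟩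
  · have : ((A * D : ℕ) : ℤ) = d := by push_cast; rw [← hD, hAD]
    exact_mod_cast this
  · intro τ
    have hDc : (D : ℂ) ≠ 0 := by exact_mod_cast hDpos.ne'
    have hden1 : (c : ℂ) * τ + e ≠ 0 := denom_SL_ne_zero γ τ
    -- integer identities
    have i1 : x * B - u' * D = d * b := by
      rw [← hD, hB, hD0]
      linear_combination (d * b : ℤ) * hxy
    have i2 : y * B + v * D = e := by
      rw [← hD, hB, hD0]
      linear_combination (e : ℤ) * hxy
    have i3 : x * A = d * a := by rw [mul_comm]; exact hx.symm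
    have i4 : y * A = c := by rw [mul_comm]; exact hy.symm
    have j1 : (x : ℂ) * B - u' * D = d * b := by exact_mod_cast i1
    have j2 : (y : ℂ) * B + v * D = e := by exact_mod_cast i2
    have j3 : (x : ℂ) * A = d * a := by exact_mod_cast i3
    have j4 : (y : ℂ) * A = c := by exact_mod_cast i4
    have k1 : (x : ℂ) * (((A : ℂ) * τ + B) / D) + ((-u' : ℤ) : ℂ) = (d * (a * τ + b)) / D := by
      field_simp
      push_cast
      linear_combination (τ : ℂ) * j3 + j1
    have k2 : (y : ℂ) * (((A : ℂ) * τ + B) / D) + v = (c * τ + e) / D := by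
      field_simp
      linear_combination (τ : ℂ) * j4 + j2
    constructor
    · apply UpperHalfPlane.ext
      rw [coe_scaleH, coe_SL_smul, coe_SL_smul, coe_affH]
      simp only [mkSL_00, mkSL_01, mkSL_10, mkSL_11]
      rw [k1, k2]
      show (d : ℂ) * ((a * τ + b) / (c * τ + e)) = _
      field_simp
    · rw [coe_affH]
      simp only [mkSL_10, mkSL_11]
      exact k2

theorem scaleH_gamma0' (d : ℕ) (hd : 0 < d) (γ : SL(2, ℤ))
    (hγ : γ ∈ CongruenceSubgroup.Gamma0 d) :
    ∃ γ' : SL(2, ℤ), ∀ τ : ℍ, scaleH d hd (γ • τ) = γ' • scaleH d hd τ ∧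
      (γ' 1 0 : ℂ) * (scaleH d hd τ : ℂ) + γ' 1 1 = (γ 1 0 : ℂ) * τ + γ 1 1 := by
  rw [CongruenceSubgroup.Gamma0_mem, ZMod.intCast_zmod_eq_zero_iff_dvd] at hγ
  obtain ⟨c', hc'⟩ := hγ
  have hdet := Fermat.Agent.JInv.det_eq γ
  refine ⟨mkSL (γ 0 0) (d * γ 0 1) c' (γ 1 1) (by rw [hc'] at hdet; linear_combination hdet), ?_⟩
  intro τ
  have hc : (γ 1 0 : ℂ) = d * c' := by rw [hc']; push_cast; ring
  have h1 : (c' : ℂ) * ((d : ℂ) * τ) + γ 1 1 = (γ 1 0 : ℂ) * τ + γ 1 1 := by rw [hc]; ring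
  constructor
  · apply UpperHalfPlane.ext
    rw [coe_scaleH, coe_SL_smul, coe_SL_smul, coe_scaleH]
    simp only [mkSL_00, mkSL_01, mkSL_10, mkSL_11]
    rw [h1]
    push_cast
    rw [← mul_div_assoc]
    congr 1
    ring
  · rw [coe_scaleH]
    simp only [mkSL_10, mkSL_11]
    exact h1

end Trans

/-- the function `Δ(τ)/Δ(dτ)` -/
def uFn (d : ℕ) (hd : 0 < d) : ℍ → ℂ := fun τ =>
  ModularForm.discriminant τ * (ModularForm.discriminant (scaleH d hd τ))⁻¹

theorem uFn_ne_zero (d : ℕ) (hd : 0 < d) (τ : ℍ) : uFn d hd τ ≠ 0 :=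
  mul_ne_zero (ModularForm.discriminant_ne_zero _) (inv_ne_zero (ModularForm.discriminant_ne_zero _))

theorem mdiff_disc : MDiff ModularForm.discriminant := CuspForm.discriminant.holo'

theorem mdiff_inv {f : ℍ → ℂ} (hf : MDiff f) (h0 : ∀ τ, f τ ≠ 0) : MDiff (fun τ => (f τ)⁻¹) := by
  rw [UpperHalfPlane.mdifferentiable_iff] at hf ⊢
  have h2 : (fun z : ℍ => (f z)⁻¹) ∘ ofComplex = (f ∘ ofComplex)⁻¹ := rfl
  rw [h2]
  exact hf.inv fun z _ => h0 _

theorem mdiff_uFn (d : ℕ) (hd : 0 < d) : MDiff (uFn d hd) := by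
  have h1 : MDiff (fun τ => (ModularForm.discriminant τ)⁻¹) :=
    mdiff_inv mdiff_disc (fun τ => ModularForm.discriminant_ne_zero τ)
  exact mdiff_disc.mul (mdiff_affH d 1 0 hd one_pos h1)

theorem uFn_inv (d : ℕ) (hd : 0 < d) (γ : SL(2, ℤ)) (hγ : γ ∈ CongruenceSubgroup.Gamma0 d)
    (τ : ℍ) : uFn d hd (γ • τ) = uFn d hd τ := by
  obtain ⟨γ', h⟩ := scaleH_gamma0' d hd γ hγ
  obtain ⟨h1, h2⟩ := h τ
  have h3 := denom_SL_ne_zero γ τ
  rw [uFn, h1, disc_smul, disc_smul, h2, uFn]
  field_simp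

/-- expansion of `1/Δ` -/
theorem hasLaurent_discInv : HasLaurent 1 (fun τ => (ModularForm.discriminant τ)⁻¹)
    (HahnSeries.single (-1 : ℤ) 1 *
      HahnSeries.ofPowerSeries ℤ ℂ (dedekindEtaUnitInv.map (Int.castRingHom ℂ))) := by
  set D : ℍ → ℂ := fun τ => ModularForm.discriminant τ / qParam 1 τ with hD
  have h1 : HasQExp 1 D (dedekindEtaUnit.map (Int.castRingHom ℂ)) := by
    have h2 := hasQExp_discriminant.shift
    have h3 : (Fermat.Agent.ModPoly.deltaPS.map (Int.castRingHom ℂ)).coeff 0 = 0 := by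
      simp [Fermat.Agent.ModPoly.deltaPS]
    simp only [h3, sub_zero] at h2
    convert h2 using 1
    ext n
    rw [PowerSeries.coeff_mk, PowerSeries.coeff_map, PowerSeries.coeff_map,
      Fermat.Agent.ModPoly.deltaPS, PowerSeries.coeff_succ_X_mul]
  have hne : ∀ τ, D τ ≠ 0 := fun τ =>
    div_ne_zero (ModularForm.discriminant_ne_zero τ) (qParam_ne_zero' 1 τ)
  have h0 : (dedekindEtaUnit.map (Int.castRingHom ℂ)).coeff 0 = 1 := by
    rw [PowerSeries.coeff_map, PowerSeries.coeff_zero_eq_constantCoeff,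
      constantCoeff_dedekindEtaUnit, map_one]
  have hhol : MDiff D := by
    have h2 : MDiff ModularForm.discriminant := mdiff_disc
    have h3 : MDiff (fun τ : ℍ => (qParam 1 τ)⁻¹) := by
      rw [UpperHalfPlane.mdifferentiable_iff]
      have h4 : DifferentiableOn ℂ (fun z : ℂ => (qParam 1 z)⁻¹) {z | 0 < z.im} := by
        apply DifferentiableOn.inv
        · exact (Function.Periodic.differentiable_qParam (h := 1)).differentiableOn
        · intro z _
          exact qParam_ne_zero' 1 z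
      refine h4.congr fun z hz => ?_
      rw [comp_apply, ofComplex_apply_of_im_pos hz]
    have h4 : D = ModularForm.discriminant * fun τ : ℍ => (qParam 1 τ)⁻¹ := by
      funext τ
      simp [hD, div_eq_mul_inv]
    rw [h4]
    exact h2.mul h3
  have h2 := h1.inv one_pos hhol hne (by rw [h0]; exact one_ne_zero)
  have h3 : (dedekindEtaUnit.map (Int.castRingHom ℂ))⁻¹ =
      dedekindEtaUnitInv.map (Int.castRingHom ℂ) := by
    symm
    rw [PowerSeries.eq_inv_iff_mul_eq_one, ← map_mul, mul_comm, dedekindEtaUnit_mul_inv, map_one]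
    rw [← PowerSeries.coeff_zero_eq_constantCoeff, h0]
    exact one_ne_zero
  rw [h3] at h2
  refine ⟨1, dedekindEtaUnitInv.map (Int.castRingHom ℂ), ?_, ?_⟩
  · rw [← mul_assoc, HahnSeries.single_mul_single]
    simp
  · convert h2 using 1
    funext τ
    have hq := qParam_ne_zero' 1 (τ : ℂ)
    have hd := ModularForm.discriminant_ne_zero τ
    simp only [hD, pow_one]
    field_simp

theorem hasLaurent_disc : HasLaurent 1 ModularForm.discriminant
    (HahnSeries.ofPowerSeries ℤ ℂ (Fermat.Agent.ModPoly.deltaPS.map (Int.castRingHom ℂ))) :=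
  HasLaurent.of_qExp hasQExp_discriminant

theorem isAn_uFn (N : ℕ) [NeZero N] (hN : 0 < N) : IsAn N (uFn N hN) := by
  refine ⟨mdiff_uFn N hN, fun γ => ?_, fun γ hγ τ => uFn_inv N hN γ hγ τ⟩
  obtain ⟨γ', A, D, B, hA, hD, hAD, h⟩ := exists_decomp' N hN γ
  have hN1 : NeZero (A * A) := ⟨(Nat.mul_pos hA hA).ne'⟩
  have hNM : (N : ℕ) = D * A := by rw [← hAD, mul_comm]
  have h1 := hasLaurent_discInv.subst (h' := (N : ℝ)) (affH A D B hA hD)
    (Units.mk0 (Complex.exp (2 * Real.pi * Complex.I * B / D)) (Complex.exp_ne_zero _)) (A * A)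
    (by
      intro τ
      rw [Units.val_mk0, hNM]
      exact qParam_affH A D B hA hD A τ hA)
  have h2 := hasLaurent_disc.subst (h' := (N : ℝ)) id 1 N (by
    intro τ
    rw [Units.val_one, one_mul, id]
    have := qParam_mul_width (h := 1) one_ne_zero N (τ : ℂ)
    rw [mul_one] at this
    exact this.symm)
  have h3 := ((HasLaurent.const (h := (N : ℝ)) ((D : ℂ) ^ 12)).mul h2).mul h1
  have h4 : (fun τ => uFn N hN (γ • τ)) = (fun _ => (D : ℂ) ^ 12) * ModularForm.discriminant ∘ id *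
      (fun τ => (ModularForm.discriminant τ)⁻¹) ∘ affH A D B hA hD := by
    funext τ
    obtain ⟨e1, e2⟩ := h τ
    have hDc : (D : ℂ) ≠ 0 := by exact_mod_cast hD.ne'
    have hden := denom_SL_ne_zero γ τ
    simp only [Pi.mul_apply, comp_apply, id, uFn]
    rw [e1, disc_smul, disc_smul, e2]
    have hne := ModularForm.discriminant_ne_zero (affH A D B hA hD τ)
    field_simp
  rw [h4]
  exact ⟨_, h3⟩

section Series

variable (R : Type*) [CommRing R]

/-- the expansion of `Δ` -/
def deltaL : LaurentSeries R :=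
  HahnSeries.ofPowerSeries ℤ R (Fermat.Agent.ModPoly.deltaPS.map (Int.castRingHom R))

/-- the expansion of `1/Δ` -/
def deltaInvL : LaurentSeries R :=
  HahnSeries.single (-1 : ℤ) 1 *
    HahnSeries.ofPowerSeries ℤ R (dedekindEtaUnitInv.map (Int.castRingHom R))

theorem deltaL_mul_inv : deltaL R * deltaInvL R = 1 := by
  rw [deltaL, deltaInvL, Fermat.Agent.ModPoly.deltaPS, map_mul, map_mul, PowerSeries.map_X,
    HahnSeries.ofPowerSeries_X]
  have h1 : (HahnSeries.single (1 : ℤ) (1 : R)) * HahnSeries.single (-1 : ℤ) (1 : R) = 1 := by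
    rw [HahnSeries.single_mul_single]; simp
  have h2 : HahnSeries.ofPowerSeries ℤ R (dedekindEtaUnit.map (Int.castRingHom R)) *
      HahnSeries.ofPowerSeries ℤ R (dedekindEtaUnitInv.map (Int.castRingHom R)) = 1 := by
    rw [← map_mul, ← map_mul, dedekindEtaUnit_mul_inv, map_one, map_one]
  calc _ = (HahnSeries.single (1 : ℤ) (1 : R) * HahnSeries.single (-1 : ℤ) (1 : R)) *
      (HahnSeries.ofPowerSeries ℤ R (dedekindEtaUnit.map (Int.castRingHom R)) *
      HahnSeries.ofPowerSeries ℤ R (dedekindEtaUnitInv.map (Int.castRingHom R))) := by ring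
    _ = 1 := by rw [h1, h2, one_mul]

variable {R} in
theorem coeffMap_deltaL {S : Type*} [CommRing S] (f : R →+* S) :
    coeffMap f (deltaL R) = deltaL S := by
  rw [deltaL, coeffMap_ofPowerSeries, ← RingHom.comp_apply (PowerSeries.map f)
    (PowerSeries.map (Int.castRingHom R)), ← PowerSeries.map_comp,
    RingHom.ext_int (f.comp (Int.castRingHom R)) (Int.castRingHom S)]
  rfl

variable {R} in
theorem coeffMap_deltaInvL {S : Type*} [CommRing S] (f : R →+* S) :
    coeffMap f (deltaInvL R) = deltaInvL S := by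
  rw [deltaInvL, map_mul, coeffMap_single, map_one, coeffMap_ofPowerSeries,
    ← RingHom.comp_apply (PowerSeries.map f)
    (PowerSeries.map (Int.castRingHom R)), ← PowerSeries.map_comp,
    RingHom.ext_int (f.comp (Int.castRingHom R)) (Int.castRingHom S)]
  rfl

variable (N : ℕ) [NeZero N]

/-- the expansion of `Δ(τ)/Δ(Nτ)` -/
def uL : LaurentSeries R := deltaL R * qExpand R N (deltaInvL R)

variable {R} in
theorem coeffMap_uL {S : Type*} [CommRing S] (f : R →+* S) :
    coeffMap f (uL R N) = uL S N := by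
  rw [uL, map_mul, coeffMap_deltaL, ModularCurve.coeffMap_qExpand, coeffMap_deltaInvL, uL]

theorem uL_mul : uL R N * (deltaInvL R * qExpand R N (deltaL R)) = 1 := by
  rw [uL]
  calc _ = (deltaL R * deltaInvL R) * (qExpand R N (deltaL R) * qExpand R N (deltaInvL R)) := by
        ring
    _ = 1 := by rw [← map_mul, deltaL_mul_inv, map_one, one_mul]

variable (K : Type*) [Field K]

theorem order_deltaL : (deltaL K).order = 1 := by
  apply le_antisymm
  · apply HahnSeries.order_le_of_coeff_ne_zero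
    have : (deltaL K).coeff ((1 : ℕ) : ℤ) = 1 := by
      rw [deltaL, HahnSeries.ofPowerSeries_apply_coeff, PowerSeries.coeff_map,
        Fermat.Agent.ModPoly.deltaPS, PowerSeries.coeff_succ_X_mul,
        PowerSeries.coeff_zero_eq_constantCoeff, constantCoeff_dedekindEtaUnit, map_one]
    rw [Nat.cast_one] at this
    rw [this]
    exact one_ne_zero
  · have hne : deltaL K ≠ 0 := left_ne_zero_of_mul_eq_one (deltaL_mul_inv K)
    by_contra hcon
    push Not at hcon
    have hz : ∀ k : ℤ, k < 1 → (deltaL K).coeff k = 0 := by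
      intro k hk
      rcases lt_or_ge k 0 with h | h
      · rw [deltaL, ofPowerSeries_coeff_of_neg _ h]
      · have h0 : k = ((0 : ℕ) : ℤ) := by
          rw [Nat.cast_zero]; omega
        rw [h0, deltaL, HahnSeries.ofPowerSeries_apply_coeff, PowerSeries.coeff_map,
          Fermat.Agent.ModPoly.deltaPS]
        simp
    exact (HahnSeries.coeff_order_eq_zero.not.2 hne) (hz _ hcon)

theorem order_deltaInvL : (deltaInvL K).order = -1 := by
  have h1 := deltaL_mul_inv K
  have hne : deltaL K ≠ 0 := left_ne_zero_of_mul_eq_one h1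
  have hne' : deltaInvL K ≠ 0 := right_ne_zero_of_mul_eq_one h1
  have h2 := congrArg HahnSeries.order h1
  rw [HahnSeries.order_mul hne hne', order_deltaL, HahnSeries.order_one] at h2
  omega

theorem uL_ne_zero : uL K N ≠ 0 := left_ne_zero_of_mul_eq_one (uL_mul K N)

theorem order_uL : (uL K N).order = 1 - N := by
  have h1 : qExpand K N (deltaInvL K) ≠ 0 := by
    rw [map_ne_zero_iff _ (qExpand_injective (R := K) N)]
    exact right_ne_zero_of_mul_eq_one (deltaL_mul_inv K)
  rw [uL, HahnSeries.order_mul (left_ne_zero_of_mul_eq_one (deltaL_mul_inv K)) h1, order_deltaL,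
    Fermat.Agent.ModPoly.order_qExpand, order_deltaInvL]
  ring

end Series

theorem hasLaurent_uFn (N : ℕ) [NeZero N] (hN : 0 < N) :
    HasLaurent 1 (uFn N hN) (uL ℂ N) := by
  have h1 := hasLaurent_discInv.subst (h' := 1) (scaleH N hN) 1 N (by
    intro τ
    rw [Units.val_one, one_mul]
    simp only [qParam, coe_scaleH]
    rw [← Complex.exp_nat_mul]
    congr 1
    push_cast
    field_simp)
  rw [Fermat.Agent.ModPoly.twist_one] at h1
  exact hasLaurent_disc.mul h1

/-- the modular unit is in the function field over `ℂ` -/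
theorem uL_mem_complex (N : ℕ) [NeZero N] : uL ℂ N ∈ FF ℂ N :=
  (isAn_uFn N (Nat.pos_of_ne_zero (NeZero.ne N))).mem_FF N (hasLaurent_uFn N _)

end Fermat.Agent.MzCusp
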