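import Fermat.Prelude.Def_ModularCurve_X0ModL
import Mathlib

/-!
# Descent of membership in the modular function field along an extension of constants
-/

set_option autoImplicit false
set_option linter.style.haveILetI false

noncomputable section

open HahnSeries IntermediateField ModularCurve

namespace Fermat.Agent.MzCusp

section Coeff

variable {L M : Type*} [Field L] [Field M] [Algebra L M]

/-- apply an `L`-linear functional coefficientwise -/
def lamMap (lam : M →ₗ[L] L) (x : LaurentSeries M) : LaurentSeries L := x.map lam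

theorem lamMap_coeff (lam : M →ₗ[L] L) (x : LaurentSeries M) (k : ℤ) :
    (lamMap lam x).coeff k = lam (x.coeff k) := rfl

theorem lamMap_add (lam : M →ₗ[L] L) (x y : LaurentSeries M) :
    lamMap lam (x + y) = lamMap lam x + lamMap lam y := by
  ext k; simp [lamMap_coeff]

theorem lamMap_zero (lam : M →ₗ[L] L) : lamMap lam (0 : LaurentSeries M) = 0 := by
  ext k; simp [lamMap_coeff]

theorem lamMap_mul (lam : M →ₗ[L] L) (x : LaurentSeries M) (z : LaurentSeries L) :
    lamMap lam (x * coeffMap (algebraMap L M) z) = lamMap lam x * z := by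
  have hsx : (lamMap lam x).support ⊆ x.support := by
    intro n hn
    simp only [HahnSeries.mem_support, lamMap_coeff] at hn ⊢
    exact fun h => hn (by rw [h, map_zero])
  have hsz : (coeffMap (algebraMap L M) z).support ⊆ z.support := by
    intro n hn
    simp only [HahnSeries.mem_support, coeffMap_coeff] at hn ⊢
    exact fun h => hn (by rw [h, map_zero])
  ext k
  rw [lamMap_coeff, HahnSeries.coeff_mul_right' z.isPWO_support hsz,
    HahnSeries.coeff_mul_left' x.isPWO_support hsx, map_sum]
  refine Finset.sum_congr rfl fun ij _ => ?_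
  rw [coeffMap_coeff, lamMap_coeff, mul_comm (x.coeff ij.1), ← Algebra.smul_def, map_smul,
    smul_eq_mul, mul_comm]

end Coeff

section Desc

variable {L M : Type*} [Field L] [Field M] (ι : L →+* M) (N : ℕ)

theorem coeffMap_monoid {m : LaurentSeries M}
    (hm : m ∈ Submonoid.closure (divisorExpansionsC M N)) :
    ∃ m' ∈ modularFunctionFieldFullC L N, coeffMap ι m' = m := by
  induction hm using Submonoid.closure_induction with
  | mem x hx =>
    obtain ⟨d, hd, hdN, rfl⟩ := hx
    exact ⟨qExpand L d (jqModC L), jqModCd_mem_full L N hdN, by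
      rw [ModularCurve.coeffMap_qExpand, coeffMap_jqModC]⟩
  | one => exact ⟨1, one_mem _, map_one _⟩
  | mul x y _ _ hx hy =>
    obtain ⟨x', hx', rfl⟩ := hx
    obtain ⟨y', hy', rfl⟩ := hy
    exact ⟨x' * y', mul_mem hx' hy', map_mul _ _ _⟩

theorem lamMap_mem {A : LaurentSeries M}
    (hA : A ∈ Algebra.adjoin M (divisorExpansionsC M N)) :
    letI := ι.toAlgebra
    ∀ lam : M →ₗ[L] L, lamMap lam A ∈ modularFunctionFieldFullC L N := by
  letI := ι.toAlgebra
  rw [← Subalgebra.mem_toSubmodule, Algebra.adjoin_eq_span] at hA
  induction hA using Submodule.span_induction with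
  | mem x hx =>
    intro lam
    obtain ⟨m', hm', rfl⟩ := coeffMap_monoid ι N hx
    have h1 : lamMap lam (coeffMap ι m') = algebraMap L (LaurentSeries L) (lam 1) * m' := by
      have h2 := lamMap_mul lam (1 : LaurentSeries M) m'
      have h3 : lamMap lam (1 : LaurentSeries M) = algebraMap L (LaurentSeries L) (lam 1) := by
        ext k
        rw [lamMap_coeff, HahnSeries.coeff_one, algebraMap_laurentSeries_eq_single]
        split_ifs with hk
        · rw [hk, HahnSeries.coeff_single_same]
        · rw [HahnSeries.coeff_single_of_ne hk, map_zero]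
      rw [one_mul, h3] at h2
      exact h2
    rw [h1]
    exact mul_mem (IntermediateField.algebraMap_mem _ _) hm'
  | zero => intro lam; rw [lamMap_zero]; exact zero_mem _
  | add x y _ _ hx hy => intro lam; rw [lamMap_add]; exact add_mem (hx lam) (hy lam)
  | smul c x _ hx =>
    intro lam
    let lam' : M →ₗ[L] L := lam.comp (LinearMap.mulLeft L c)
    have h1 : lamMap lam (algebraMap M (LaurentSeries M) c * x) = lamMap lam' x := by
      ext k
      rw [lamMap_coeff, lamMap_coeff]
      show lam ((algebraMap M (LaurentSeries M) c * x).coeff k) = lam (c * x.coeff k)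
      rw [algebraMap_laurentSeries_eq_single, HahnSeries.coeff_single_mul, sub_zero]
    rw [Algebra.smul_def, h1]
    exact hx lam'

/-- **Descent.** -/
theorem mem_full_of_coeffMap {y : LaurentSeries L}
    (hy : coeffMap ι y ∈ modularFunctionFieldFullC M N) : y ∈ modularFunctionFieldFullC L N := by
  letI := ι.toAlgebra
  rw [modularFunctionFieldFullC, IntermediateField.mem_adjoin_iff_div] at hy
  obtain ⟨A, hA, B, hB, hAB⟩ := hy
  by_cases hB0 : B = 0
  · rw [hB0, div_zero] at hAB
    have : y = 0 := by
      ext k
      have h1 := congrArg (fun z => HahnSeries.coeff z k) hAB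
      simp only [coeffMap_coeff, HahnSeries.coeff_zero] at h1
      rw [HahnSeries.coeff_zero]
      exact (map_eq_zero ι).1 h1
    rw [this]; exact zero_mem _
  have h1 : B * coeffMap ι y = A := by
    rw [hAB]; field_simp
  obtain ⟨k, hk⟩ : ∃ k, B.coeff k ≠ 0 := by
    by_contra hcon
    push Not at hcon
    exact hB0 (by ext k; rw [hcon k, HahnSeries.coeff_zero])
  obtain ⟨lam, hlam⟩ : ∃ lam : M →ₗ[L] L, lam (B.coeff k) ≠ 0 := by
    by_contra hcon
    push Not at hcon
    exact hk ((Module.forall_dual_apply_eq_zero_iff L _).1 hcon)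
  have h2 : lamMap lam B * y = lamMap lam A := by
    rw [← h1, ← lamMap_mul]
    rfl
  have h3 : lamMap lam B ≠ 0 := by
    intro h
    apply hlam
    rw [← lamMap_coeff, h, HahnSeries.coeff_zero]
  have h4 : y = lamMap lam A / lamMap lam B := by
    rw [eq_div_iff h3, mul_comm, h2]
  rw [h4]
  exact div_mem (lamMap_mem ι N hA lam) (lamMap_mem ι N hB lam)

end Desc

end Fermat.Agent.MzCusp
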