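import Fermat.Agent.AtkinLehner.Basic
import Fermat.Agent.Cusps.LevelPP
import Fermat.Agent.HeckeRed.Inputs

/-!
# The two cusps of `X₀(p)`, `p` prime, over an algebraically closed field of characteristic `≠ p`
-/

set_option autoImplicit false
set_option linter.unusedSectionVars false

noncomputable section

open HahnSeries WithZero IntermediateField ModularCurve AlgebraicCurve
open Fermat.Agent.ModPoly Fermat.Agent.ModDeg Fermat.Agent.FunField
  Fermat.Agent.FunField.PlaceLemmas Fermat.Agent.Cusps

namespace Fermat.Agent.MzCusp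

section General

variable {K : Type*} [Field K] [IsAlgClosed K] {N : ℕ} [NeZero N]

/-- the place attached to an embedding of the function field into `K((q))` -/
theorem exists_place_of_emb (τ : modularFunctionFieldFullC K N →+* LaurentSeries K)
    (hK : ∀ c : K, τ (algebraMap K _ c) = algebraMap K (LaurentSeries K) c)
    (x₀ : modularFunctionFieldFullC K N) (hx₀ : (τ x₀).order = -1) :
    ∃ P : Place K (modularFunctionFieldFullC K N), ∀ x, P.ord x = (τ x).order := by
  have hne0 : τ x₀ ≠ 0 := by
    intro h
    rw [h, HahnSeries.order_zero] at hx₀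
    exact absurd hx₀ (by norm_num)
  have hL : ∀ c : K, ((lval K).comap τ) (algebraMap K _ c) ≤ 1 := by
    intro c
    rw [Valuation.comap_apply, hK]
    exact lval_algebraMap_le c
  have hv : lval K (τ x₀) = exp (1 : ℤ) := by
    rw [lval_apply hne0, hx₀, neg_neg]
  have hne : ∃ x, 1 < ((lval K).comap τ) x := by
    refine ⟨x₀, ?_⟩
    rw [Valuation.comap_apply, hv, ← exp_zero, exp_lt_exp]
    norm_num
  obtain ⟨e, he, h⟩ := X0Places.exists_ramification ((lval K).comap τ) hL hne
  set P := X0Places.placeOfVal ((lval K).comap τ) hL hne with hP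
  have hord : ∀ x, x ≠ 0 → (τ x).order = e * P.ord x := by
    intro x hx
    have h1 := h x hx
    have h2 : τ x ≠ 0 := by rwa [map_ne_zero]
    rw [Valuation.comap_apply, lval_apply h2, exp_inj, neg_inj] at h1
    exact h1
  have hx0 : x₀ ≠ 0 := by rintro rfl; exact hne0 (map_zero _)
  have h1 := hord x₀ hx0
  rw [hx₀] at h1
  have h2 : (e : ℤ) ∣ 1 := ⟨-P.ord x₀, by rw [mul_neg, ← h1]; ring⟩
  have h3 : (e : ℤ) = 1 := Int.eq_one_of_dvd_one (by positivity) h2
  refine ⟨P, fun x => ?_⟩
  by_cases hx : x = 0
  · rw [hx, P.ord_zero, map_zero, HahnSeries.order_zero]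
  · rw [hord x hx, h3, one_mul]

variable (K N)

theorem exists_cuspInf : ∃ P : Place K (modularFunctionFieldFullC K N),
    ∀ x, P.ord x = (x : LaurentSeries K).order :=
  exists_place_of_emb ((modularFunctionFieldFullC K N).val : _ →+* LaurentSeries K)
    (fun _ => rfl) (HeckeRed.jF K N) order_jqModC

/-- the cusp `∞` of `X₀(N)` -/
def cuspInf : Place K (modularFunctionFieldFullC K N) := (exists_cuspInf K N).choose

theorem ord_cuspInf (x : modularFunctionFieldFullC K N) :
    (cuspInf K N).ord x = (x : LaurentSeries K).order := (exists_cuspInf K N).choose_spec x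

omit [NeZero N] in
theorem jF_ne_zero : HeckeRed.jF K N ≠ 0 := by
  intro h
  have h1 : jqModC K = 0 := congrArg Subtype.val h
  have h2 := order_jqModC (K := K)
  rw [h1, HahnSeries.order_zero] at h2
  exact absurd h2 (by norm_num)

/-- the function `j_N` -/
def jNF : modularFunctionFieldFullC K N := ⟨qExpand K N (jqModC K), jqModCd_mem_full K N dvd_rfl⟩

@[simp] theorem coe_jNF : (jNF K N : LaurentSeries K) = qExpand K N (jqModC K) := rfl

@[simp] theorem coe_jF : (HeckeRed.jF K N : LaurentSeries K) = jqModC K := rfl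

theorem ord_cuspInf_jF : (cuspInf K N).ord (HeckeRed.jF K N) = -1 := by
  rw [ord_cuspInf, coe_jF, order_jqModC]

theorem ord_cuspInf_jNF : (cuspInf K N).ord (jNF K N) = -N := by
  rw [ord_cuspInf, coe_jNF, order_qExpand, order_jqModC]
  ring

end General

section Level

variable (K : Type*) [Field K] [IsAlgClosed K] (p : ℕ) [hp : Fact p.Prime]

instance neZero_p : NeZero p := ⟨hp.out.ne_zero⟩

theorem exists_wp_aux (hpK : (p : K) ≠ 0) (M : ℕ) [NeZero M] (hM : M = 1 * p) :
    ∃ w : modularFunctionFieldFullC K M ≃ₐ[K] modularFunctionFieldFullC K M,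
      (w (HeckeRed.jF K M) : LaurentSeries K) = qExpand K M (jqModC K) ∧
      (w (jNF K M) : LaurentSeries K) = jqModC K := by
  subst hM
  have h1K : ((1 : ℕ) : K) ≠ 0 := by simp
  have hp1 : ¬ p ∣ 1 := by
    rw [Nat.dvd_one]
    exact hp.out.one_lt.ne'
  have hvj1 : vj K 1 = jqModC K := vj_one K
  have hvjp : vj K (1 * p) = qExpand K (1 * p) (jqModC K) := vj_eq K (1 * p)
  refine ⟨AtkinLehner.w h1K hpK hp1, ?_, ?_⟩
  · have h := AtkinLehner.w_vj h1K hpK hp1 (d := 1) (one_dvd 1) (by
      rw [hvj1]; exact (HeckeRed.jF K (1 * p)).2)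
    rw [hvjp] at h
    rw [← h]
    congr 2
    exact Subtype.ext hvj1.symm
  · have h := AtkinLehner.w_vj_mul h1K hpK hp1 (d := 1) (one_dvd 1) (by
      rw [hvjp]; exact (jNF K (1 * p)).2)
    rw [hvj1] at h
    rw [← h]
    congr 2
    exact Subtype.ext hvjp.symm

theorem exists_wp (hpK : (p : K) ≠ 0) :
    ∃ w : modularFunctionFieldFullC K p ≃ₐ[K] modularFunctionFieldFullC K p,
      (w (HeckeRed.jF K p) : LaurentSeries K) = qExpand K p (jqModC K) ∧
      (w (jNF K p) : LaurentSeries K) = jqModC K :=
  exists_wp_aux K p hpK p (one_mul p).symm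

/-- the Atkin-Lehner involution of level `p` -/
def wp (hpK : (p : K) ≠ 0) :
    modularFunctionFieldFullC K p ≃ₐ[K] modularFunctionFieldFullC K p :=
  (exists_wp K p hpK).choose

variable (hpK : (p : K) ≠ 0)

theorem coe_wp_jF : (wp K p hpK (HeckeRed.jF K p) : LaurentSeries K) = qExpand K p (jqModC K) :=
  (exists_wp K p hpK).choose_spec.1

theorem coe_wp_jNF : (wp K p hpK (jNF K p) : LaurentSeries K) = jqModC K :=
  (exists_wp K p hpK).choose_spec.2

theorem exists_cuspZero : ∃ P : Place K (modularFunctionFieldFullC K p),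
    ∀ x, P.ord x = (wp K p hpK x : LaurentSeries K).order := by
  refine exists_place_of_emb (((modularFunctionFieldFullC K p).val : _ →+* LaurentSeries K).comp
    ((wp K p hpK).toAlgHom.toRingHom)) (fun c => ?_) (jNF K p) ?_
  · show ((wp K p hpK (algebraMap K _ c) : modularFunctionFieldFullC K p) : LaurentSeries K) = _
    rw [AlgEquiv.commutes]
    rfl
  · show ((wp K p hpK (jNF K p) : modularFunctionFieldFullC K p) : LaurentSeries K).order = -1
    rw [coe_wp_jNF, order_jqModC]

/-- the cusp `0` of `X₀(p)` -/
def cuspZero : Place K (modularFunctionFieldFullC K p) := (exists_cuspZero K p hpK).choose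

theorem ord_cuspZero (x : modularFunctionFieldFullC K p) :
    (cuspZero K p hpK).ord x = (wp K p hpK x : LaurentSeries K).order :=
  (exists_cuspZero K p hpK).choose_spec x

theorem ord_cuspZero_jF : (cuspZero K p hpK).ord (HeckeRed.jF K p) = -p := by
  rw [ord_cuspZero, coe_wp_jF, order_qExpand, order_jqModC]
  ring

theorem ord_cuspZero_jNF : (cuspZero K p hpK).ord (jNF K p) = -1 := by
  rw [ord_cuspZero, coe_wp_jNF, order_jqModC]

theorem cuspInf_ne_cuspZero : cuspInf K p ≠ cuspZero K p hpK := by
  intro h
  have h1 := ord_cuspZero_jF K p hpK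
  rw [← h, ord_cuspInf_jF] at h1
  have := hp.out.one_lt
  omega

theorem deg_eq_one (P : Place K (modularFunctionFieldFullC K p)) : P.deg = 1 := by
  have hfin : Module.Finite K P.ResidueField := inferInstance
  exact P.deg_eq_one_of_isAlgClosed_of_finite

include hpK in
theorem degree_poleDiv_jF : Divisor.degree (poleDiv (HeckeRed.jF K p) :
    Divisor K (modularFunctionFieldFullC K p)) = p + 1 := by
  have htr := HeckeRed.transcendental_jF K p
  have hdeg := degree_poleDiv (K := K) htr
  rw [finrank_adjoin_eq_relfinrank] at hdeg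
  have h5 : relfinrank K⟮((HeckeRed.jF K p : modularFunctionFieldFullC K p) :
      LaurentSeries K)⟯ (modularFunctionFieldFullC K p) = p + 1 :=
    relfinrank_jj_p hpK
  rw [h5] at hdeg
  rw [hdeg]
  push_cast
  rfl

include hpK in
/-- **The two cusps.** -/
theorem cusp_cases (P : Place K (modularFunctionFieldFullC K p))
    (hP : P.ord (HeckeRed.jF K p) < 0) : P = cuspInf K p ∨ P = cuspZero K p hpK := by
  classical
  by_contra hcon
  push Not at hcon
  obtain ⟨h1, h2⟩ := hcon
  have h3 := cuspInf_ne_cuspZero K p hpK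
  have hle : Finsupp.single (cuspInf K p) 1 + Finsupp.single (cuspZero K p hpK) (p : ℤ) +
      Finsupp.single P 1 ≤ (poleDiv (HeckeRed.jF K p) :
        Divisor K (modularFunctionFieldFullC K p)) := by
    intro Q
    simp only [Finsupp.add_apply, Finsupp.single_apply, poleDiv_apply]
    have hpos : (0 : ℤ) ≤ max (-Q.ord (HeckeRed.jF K p)) 0 := le_max_right _ _
    by_cases e1 : cuspInf K p = Q
    · subst e1
      rw [if_pos rfl, if_neg (Ne.symm h3), if_neg h1, ord_cuspInf_jF]
      norm_num
    · rw [if_neg e1]
      by_cases e2 : cuspZero K p hpK = Q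
      · subst e2
        rw [if_pos rfl, if_neg h2, ord_cuspZero_jF, neg_neg]
        simp
      · rw [if_neg e2]
        by_cases e3 : P = Q
        · subst e3
          rw [if_pos rfl]
          refine le_max_of_le_left ?_
          omega
        · rw [if_neg e3]
          simpa using hpos
  have h5 := degree_mono hle
  rw [degree_poleDiv_jF K p hpK, map_add, map_add, Divisor.degree_single, Divisor.degree_single,
    Divisor.degree_single, deg_eq_one, deg_eq_one, deg_eq_one] at h5
  push_cast at h5
  omega

theorem wp_jF : wp K p hpK (HeckeRed.jF K p) = jNF K p := Subtype.ext (coe_wp_jF K p hpK)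

theorem wp_jNF : wp K p hpK (jNF K p) = HeckeRed.jF K p := Subtype.ext (coe_wp_jNF K p hpK)

include hpK in
theorem cusp_cases' (P : Place K (modularFunctionFieldFullC K p))
    (hP : P.ord (jNF K p) < 0) : P = cuspInf K p ∨ P = cuspZero K p hpK := by
  apply cusp_cases K p hpK
  have h1 := Place.ord_smul (wp K p hpK) P (jNF K p)
  rw [wp_jNF] at h1
  have h2 := Place.ord_smul (wp K p hpK) P (HeckeRed.jF K p)
  rw [wp_jF] at h2
  rw [← h2]
  rcases cusp_cases K p hpK (wp K p hpK • P) (by rw [h1]; exact hP) with h3 | h3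
  · rw [h3, ord_cuspInf_jNF]
    have := hp.out.pos
    omega
  · rw [h3, ord_cuspZero_jNF]
    norm_num

end Level

/-- The cusps of the function field of level `p`, as a structure (to be used on fields which are
only propositionally equal to the modular function field). -/
structure CuspData (K : Type*) [Field K] (p : ℕ) [NeZero p]
    (E : IntermediateField K (LaurentSeries K)) where
  j : E
  jp : E
  coe_j : (j : LaurentSeries K) = jqModC K
  coe_jp : (jp : LaurentSeries K) = qExpand K p (jqModC K)
  inf : Place K E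
  zero : Place K E
  ord_inf : ∀ x : E, inf.ord x = (x : LaurentSeries K).order
  ord_zero_j : zero.ord j = -p
  ord_zero_jp : zero.ord jp = -1
  cases : ∀ P : Place K E, P.ord j < 0 → P = inf ∨ P = zero
  cases' : ∀ P : Place K E, P.ord jp < 0 → P = inf ∨ P = zero

namespace CuspData

variable {K : Type*} [Field K] {p : ℕ} [NeZero p] {E : IntermediateField K (LaurentSeries K)}
  (C : CuspData K p E)

theorem ord_inf_j : C.inf.ord C.j = -1 := by rw [C.ord_inf, C.coe_j, order_jqModC]

theorem ord_inf_jp : C.inf.ord C.jp = -p := by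
  rw [C.ord_inf, C.coe_jp, order_qExpand, order_jqModC]; ring

theorem inf_ne_zero (hp : 1 < p) : C.inf ≠ C.zero := by
  intro h
  have h1 := C.ord_zero_j
  rw [← h, ord_inf_j] at h1
  omega

end CuspData

theorem nonempty_cuspData (K : Type*) [Field K] [IsAlgClosed K] (p : ℕ) [hp : Fact p.Prime]
    (hpK : (p : K) ≠ 0) (E : IntermediateField K (LaurentSeries K))
    (hE : E = modularFunctionFieldFullC K p) : Nonempty (CuspData K p E) := by
  subst hE
  exact ⟨
    { j := HeckeRed.jF K p
      jp := jNF K p
      coe_j := rfl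
      coe_jp := rfl
      inf := cuspInf K p
      zero := cuspZero K p hpK
      ord_inf := ord_cuspInf K p
      ord_zero_j := ord_cuspZero_jF K p hpK
      ord_zero_jp := ord_cuspZero_jNF K p hpK
      cases := cusp_cases K p hpK
      cases' := cusp_cases' K p hpK }⟩

/-- the cusps (an opaque choice, unique in all its data) -/
def cuspData (K : Type*) [Field K] [IsAlgClosed K] (p : ℕ) [hp : Fact p.Prime]
    (hpK : (p : K) ≠ 0) (E : IntermediateField K (LaurentSeries K))
    (hE : E = modularFunctionFieldFullC K p) : CuspData K p E :=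
  Classical.choice (nonempty_cuspData K p hpK E hE)

end Fermat.Agent.MzCusp
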