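import Fermat.Agent.Cusps.CharZero
import Fermat.Agent.HeckeRed.Package

/-!
# The genus of `X₀(p)` is positive for `p = 11` and `p ≥ 17` prime
-/

set_option autoImplicit false

noncomputable section

open ModularCurve AlgebraicCurve

namespace Fermat.Agent.MzCusp

open Fermat.Agent.FunField Fermat.Agent.Cusps

theorem dedekindPsi_prime {p : ℕ} (hp : p.Prime) : dedekindPsi p = p + 1 := by
  have h1 : p.divisors.filter Squarefree = {1, p} := by
    rw [hp.divisors]
    ext d
    simp only [Finset.mem_filter, Finset.mem_insert, Finset.mem_singleton]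
    constructor
    · exact fun h => h.1
    · rintro (rfl | rfl)
      · exact ⟨Or.inl rfl, squarefree_one⟩
      · exact ⟨Or.inr rfl, hp.prime.squarefree⟩
  rw [dedekindPsi, h1, Finset.sum_pair hp.one_lt.ne, Nat.div_one, Nat.div_self hp.pos]

theorem cuspCount_prime {p : ℕ} (hp : p.Prime) : cuspCount p = 2 := by
  rw [cuspCount, hp.divisors, Finset.sum_pair hp.one_lt.ne, Nat.div_one, Nat.div_self hp.pos,
    Nat.gcd_one_left, Nat.gcd_one_right, Nat.totient_one]

theorem card_roots_le {p : ℕ} [hp : Fact p.Prime] (f : Polynomial (ZMod p)) (hf : f ≠ 0)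
    (P : ZMod p → Prop) (hP : ∀ x, P x → f.eval x = 0) :
    Nat.card {x : ZMod p // P x} ≤ f.natDegree := by
  classical
  have h1 : Nat.card {x : ZMod p // P x} ≤ Nat.card {x : ZMod p // x ∈ f.roots.toFinset} :=
    Nat.card_le_card_of_injective (fun x => ⟨x.1, by
      rw [Multiset.mem_toFinset, Polynomial.mem_roots hf]
      exact hP x.1 x.2⟩) (fun x y h => Subtype.ext (congrArg (fun z => z.1) h))
  refine h1.trans ?_
  rw [Nat.card_eq_fintype_card, Fintype.card_coe]
  exact (Multiset.toFinset_card_le _).trans (Polynomial.card_roots' f)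

theorem nuTwo_le {p : ℕ} [hp : Fact p.Prime] : nuTwo p ≤ 2 := by
  have h := card_roots_le (Polynomial.X ^ 2 + 1 : Polynomial (ZMod p)) (by
    apply Polynomial.Monic.ne_zero
    monicity!) (fun x => x ^ 2 + 1 = 0) (fun x hx => by simpa using hx)
  refine h.trans ?_
  compute_degree

theorem nuThree_le {p : ℕ} [hp : Fact p.Prime] : nuThree p ≤ 2 := by
  have h := card_roots_le (Polynomial.X ^ 2 + Polynomial.X + 1 : Polynomial (ZMod p)) (by
    apply Polynomial.Monic.ne_zero
    monicity!) (fun x => x ^ 2 + x + 1 = 0) (fun x hx => by simpa using hx)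
  refine h.trans ?_
  compute_degree

theorem nuTwo_eleven : nuTwo 11 = 0 := by
  rw [nuTwo]
  have : IsEmpty {x : ZMod 11 // x ^ 2 + 1 = 0} := ⟨fun x => by
    have h : ∀ y : ZMod 11, y ^ 2 + 1 ≠ 0 := by decide
    exact h x.1 x.2⟩
  exact Nat.card_of_isEmpty

theorem nuThree_eleven : nuThree 11 = 0 := by
  rw [nuThree]
  have : IsEmpty {x : ZMod 11 // x ^ 2 + x + 1 = 0} := ⟨fun x => by
    have h : ∀ y : ZMod 11, y ^ 2 + y + 1 ≠ 0 := by decide
    exact h x.1 x.2⟩
  exact Nat.card_of_isEmpty

theorem genusFormula_pos {p : ℕ} [hp : Fact p.Prime] (hp' : p ∉ ({2, 3, 5, 7, 13} : Finset ℕ)) :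
    0 < genusFormula p := by
  have h1 := dedekindPsi_prime hp.out
  have h2 := cuspCount_prime hp.out
  rw [genusFormula, h1, h2]
  simp only [Finset.mem_insert, Finset.mem_singleton, not_or] at hp'
  obtain ⟨n2, n3, n5, n7, n13⟩ := hp'
  by_cases h11 : p = 11
  · subst h11
    rw [nuTwo_eleven, nuThree_eleven]
    norm_num
  · have h17 : 14 ≤ p := by
      by_contra hcon
      push Not at hcon
      have := hp.out
      interval_cases p <;> revert this n2 n3 n5 n7 n13 h11 <;> decide
    have h3 : (nuTwo p : ℚ) ≤ 2 := by exact_mod_cast nuTwo_le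
    have h4 : (nuThree p : ℚ) ≤ 2 := by exact_mod_cast nuThree_le
    have h5 : (14 : ℚ) ≤ p := by exact_mod_cast h17
    push_cast
    linarith

theorem genusFF_ne_zero (L : Type*) [Field L] [Algebra ℚ L] [IsAlgClosed L] (ι : L →+* ℂ)
    {p : ℕ} [hp : Fact p.Prime] (hp' : p ∉ ({2, 3, 5, 7, 13} : Finset ℕ)) :
    genusFF L (modularFunctionFieldFullC L p) ≠ 0 := by
  intro h
  have h1 := genusFF_full L ι p
  rw [h] at h1
  have h2 := genusFormula_pos hp'
  rw [← h1] at h2
  simp at h2

end Fermat.Agent.MzCusp
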