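import Fermat.Agent.MzCusp.Unit
import Fermat.Agent.Frob.QbarInst
import Fermat.Prelude.Def_ModularCurve_HeckeModule

/-!
# The cuspidal class of `J₀(N)`, `N` prime
-/

set_option autoImplicit false
set_option linter.unusedSectionVars false

noncomputable section

open ModularCurve AlgebraicCurve

attribute [-instance] Fermat.Agent.X0Places.ffField Fermat.Agent.X0Places.ffAlgebra

namespace Fermat.Agent.MzCusp

open Fermat.Agent.FunField Fermat.Agent.FunField.PlaceLemmas IntermediateField

local notation "Qb" => AlgebraicClosure ℚ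

section Main

variable (N : ℕ) [hN : Fact N.Prime]

/-- an embedding of `ℚ̄` into `ℂ` -/
def iotaC : Qb →+* ℂ := (IsAlgClosed.lift : Qb →ₐ[ℚ] ℂ).toRingHom

/-- the cusps of `X₀(N)` over `ℚ̄` -/
def cD : CuspData Qb N (modularFunctionFieldBar N) :=
  cuspData Qb N (by exact_mod_cast hN.out.ne_zero) _ (HeckeRed.laurentBaseChange_full Qb N)

/-- the cusp `∞` -/
def cInf : Place Qb (modularFunctionFieldBar N) := (cD N).inf

/-- the cusp `0` -/
def cZero : Place Qb (modularFunctionFieldBar N) := (cD N).zero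

theorem deg_eq_one_bar (P : Place Qb (modularFunctionFieldBar N)) : P.deg = 1 := by
  have hfin : Module.Finite Qb P.ResidueField := inferInstance
  exact P.deg_eq_one_of_isAlgClosed_of_finite

/-- the divisor `(P) - (Q)` of degree zero -/
def diffDiv (P Q : Place Qb (modularFunctionFieldBar N)) :
    Divisor.degZero (K := Qb) (F := modularFunctionFieldBar N) :=
  ⟨Finsupp.single P 1 - Finsupp.single Q 1, by
    rw [Divisor.mem_degZero, map_sub, Divisor.degree_single, Divisor.degree_single,
      deg_eq_one_bar, deg_eq_one_bar, sub_self]⟩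

/-- the class of `(P) - (Q)` -/
def diffClass (P Q : Place Qb (modularFunctionFieldBar N)) : JZero N := Pic0.mk (diffDiv N P Q)

/-- the cuspidal class `(0) - (∞)` -/
def cuspClass : JZero N := diffClass N (cZero N) (cInf N)

theorem diffClass_add (P Q R : Place Qb (modularFunctionFieldBar N)) :
    diffClass N P Q + diffClass N Q R = diffClass N P R := by
  rw [diffClass, diffClass, diffClass, ← Pic0.mk_add]
  congr 1
  apply Subtype.ext
  show (Finsupp.single P 1 - Finsupp.single Q 1) + (Finsupp.single Q 1 - Finsupp.single R 1) = _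
  rw [sub_add_sub_cancel]
  rfl

theorem diffClass_self (P : Place Qb (modularFunctionFieldBar N)) : diffClass N P P = 0 := by
  rw [diffClass, ← Pic0.mk_zero]
  congr 1
  apply Subtype.ext
  exact sub_self _

/-- **The cuspidal class is killed by `N - 1`.** -/
theorem cuspClass_torsion : (N - 1) • cuspClass N = 0 := by
  have h1 := isPrincipal_cusp (L := Qb) iotaC N (cD N)
  have h2 : (N - 1) • cuspClass N = Pic0.mk ((N - 1) • diffDiv N (cZero N) (cInf N)) :=
    (QuotientAddGroup.mk_nsmul _ _ _).symm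
  rw [h2, HeckeRed.mk_eq_zero_iff', Divisor.mem_principal]
  have h3 : (((N - 1) • diffDiv N (cZero N) (cInf N) :
      Divisor.degZero (K := Qb) (F := modularFunctionFieldBar N)) :
        Divisor Qb (modularFunctionFieldBar N)) =
      Finsupp.single (cD N).zero ((N : ℤ) - 1) - Finsupp.single (cD N).inf ((N : ℤ) - 1) := by
    have h4 : ((N - 1 : ℕ) : ℤ) = (N : ℤ) - 1 := by
      rw [Nat.cast_sub hN.out.pos]; rfl
    show (N - 1) • (Finsupp.single (cD N).zero (1 : ℤ) - Finsupp.single (cD N).inf 1) = _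
    rw [smul_sub, Finsupp.smul_single, Finsupp.smul_single, nsmul_eq_mul, mul_one, h4]
  rw [h3]
  exact h1

/-- **`T_ℓ c = (ℓ + 1) c`.** -/
theorem heckeOperatorBar_cuspClass (ℓ : Nat.Primes) (hℓ : (ℓ : ℕ) ≠ N) :
    heckeOperatorBar N ℓ (cuspClass N) = ((ℓ : ℤ) + 1) • cuspClass N := by
  haveI hf : Fact (ℓ : ℕ).Prime := ⟨ℓ.2⟩
  haveI hz : NeZero (ℓ : ℕ) := ⟨ℓ.2.ne_zero⟩
  rw [heckeOperatorBar_apply, cuspClass, diffClass, HeckeRed.heckeOperatorAlong_mk]
  have hc := hecke_cusp (K := Qb) (N := N) (ℓ := (ℓ : ℕ)) hℓ (by exact_mod_cast hN.out.ne_zero)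
    (by exact_mod_cast hf.out.ne_zero) (HeckeRed.laurentBaseChange_full Qb N)
    (HeckeRed.laurentBaseChange_full Qb (N * ℓ)) (heckeAlphaBar Qb N ℓ) (heckeBetaBar Qb N ℓ)
    (fun x => coe_heckeAlphaBar N ℓ x) (fun x => coe_heckeBetaBar N ℓ x)
    (HeckeRed.alphaInt Qb N ℓ) (HeckeRed.betaInt Qb N ℓ) (cD N)
  have h2 : ((ℓ : ℤ) + 1) • Pic0.mk (diffDiv N (cZero N) (cInf N)) =
    Pic0.mk (((ℓ : ℤ) + 1) • diffDiv N (cZero N) (cInf N)) := (QuotientAddGroup.mk_zsmul _ _ _).symm
  rw [h2]
  congr 1
  apply Subtype.ext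
  rw [Pic0.coe_degZeroCorrespondence]
  show Divisor.correspondence _ _ _ _ (Finsupp.single (cD N).zero (1 : ℤ) -
    Finsupp.single (cD N).inf 1) = ((ℓ : ℤ) + 1) • (Finsupp.single (cD N).zero (1 : ℤ) -
    Finsupp.single (cD N).inf 1)
  rw [map_sub, hc.1, hc.2, smul_sub, Finsupp.smul_single, Finsupp.smul_single, smul_eq_mul,
    mul_one]

theorem place_ext_ord {P Q : Place Qb (modularFunctionFieldBar N)}
    (h : ∀ f, P.ord f = Q.ord f) : P = Q := by
  apply Place.toValuationSubring_injective
  ext f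
  by_cases hf : f = 0
  · rw [hf]
    exact ⟨fun _ => zero_mem _, fun _ => zero_mem _⟩
  · rw [mem_iff_ord_nonneg P hf, mem_iff_ord_nonneg Q hf, h]

theorem ord_galois_smul (σ : Qb ≃ₐ[ℚ] Qb) (P : Place Qb (modularFunctionFieldBar N))
    (f : modularFunctionFieldBar N) :
    (arithmeticGalois (modularFunctionFieldFull N) σ • P).ord f =
      P.ord (arithmeticGalois (modularFunctionFieldFull N) σ⁻¹ • f) := by
  have h := SemilinearAut.ord_smul (arithmeticGalois (modularFunctionFieldFull N) σ) P
    (arithmeticGalois (modularFunctionFieldFull N) σ⁻¹ • f)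
  rw [← h, map_inv, smul_inv_smul]

theorem order_coeffMap {K K' : Type*} [Field K] [Field K'] (φ : K →+* K') (x : LaurentSeries K) :
    (coeffMap φ x).order = x.order := by
  by_cases hx : x = 0
  · rw [hx, map_zero, HahnSeries.order_zero, HahnSeries.order_zero]
  have hx' : coeffMap φ x ≠ 0 := by
    intro h
    apply hx
    ext k
    have h1 := congrArg (fun z => HahnSeries.coeff z k) h
    simp only [coeffMap_coeff, HahnSeries.coeff_zero] at h1
    rw [HahnSeries.coeff_zero]
    exact (map_eq_zero φ).1 h1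
  apply le_antisymm
  · apply HahnSeries.order_le_of_coeff_ne_zero
    rw [coeffMap_coeff]
    exact fun h => (HahnSeries.coeff_order_eq_zero.not.2 hx) ((map_eq_zero φ).1 h)
  · apply HahnSeries.order_le_of_coeff_ne_zero
    intro h
    apply (HahnSeries.coeff_order_eq_zero.not.2 hx')
    rw [coeffMap_coeff, h, map_zero]

/-- The cusp `∞` is rational. -/
theorem galois_smul_cInf (σ : Qb ≃ₐ[ℚ] Qb) :
    arithmeticGalois (modularFunctionFieldFull N) σ • cInf N = cInf N := by
  apply place_ext_ord
  intro f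
  rw [ord_galois_smul, cInf, (cD N).ord_inf, (cD N).ord_inf, coe_arithmeticGalois_smul,
    order_coeffMap]

theorem galois_smul_j (σ : Qb ≃ₐ[ℚ] Qb) :
    arithmeticGalois (modularFunctionFieldFull N) σ • (cD N).j = (cD N).j := by
  apply Subtype.ext
  rw [coe_arithmeticGalois_smul, (cD N).coe_j, coeffMap_jqModC]

theorem galois_smul_jp (σ : Qb ≃ₐ[ℚ] Qb) :
    arithmeticGalois (modularFunctionFieldFull N) σ • (cD N).jp = (cD N).jp := by
  apply Subtype.ext
  rw [coe_arithmeticGalois_smul, (cD N).coe_jp, ModularCurve.coeffMap_qExpand, coeffMap_jqModC]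

/-- The cusp `0` is rational. -/
theorem galois_smul_cZero (σ : Qb ≃ₐ[ℚ] Qb) :
    arithmeticGalois (modularFunctionFieldFull N) σ • cZero N = cZero N := by
  have h1 : (arithmeticGalois (modularFunctionFieldFull N) σ • cZero N).ord (cD N).j = -N := by
    rw [ord_galois_smul, galois_smul_j, cZero, (cD N).ord_zero_j]
  have hN1 := hN.out.one_lt
  rcases (cD N).cases _ (by rw [h1]; omega) with h | h
  · exfalso
    rw [h, (cD N).ord_inf_j] at h1
    omega
  · exact h

/-- The cuspidal class is rational. -/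
theorem galois_smul_cuspClass (σ : Qb ≃ₐ[ℚ] Qb) : σ • cuspClass N = cuspClass N := by
  rw [galois_smul_pic0_def, cuspClass, diffClass, SemilinearAut.pic0_smul_mk]
  congr 1
  apply Subtype.ext
  rw [SemilinearAut.coe_degZeroSMulHom]
  show arithmeticGalois (modularFunctionFieldFull N) σ • (Finsupp.single (cZero N) (1 : ℤ) -
    Finsupp.single (cInf N) 1) = Finsupp.single (cZero N) (1 : ℤ) - Finsupp.single (cInf N) 1
  rw [smul_sub, SemilinearAut.smul_single, SemilinearAut.smul_single, galois_smul_cInf,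
    galois_smul_cZero]

/-- classes of differences of rational places are rational -/
theorem galois_smul_diffClass (σ : Qb ≃ₐ[ℚ] Qb) (P Q : Place Qb (modularFunctionFieldBar N))
    (hP : arithmeticGalois (modularFunctionFieldFull N) σ • P = P)
    (hQ : arithmeticGalois (modularFunctionFieldFull N) σ • Q = Q) :
    σ • diffClass N P Q = diffClass N P Q := by
  rw [galois_smul_pic0_def, diffClass, SemilinearAut.pic0_smul_mk]
  congr 1
  apply Subtype.ext
  rw [SemilinearAut.coe_degZeroSMulHom]
  show arithmeticGalois (modularFunctionFieldFull N) σ • (Finsupp.single P (1 : ℤ) -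
    Finsupp.single Q 1) = Finsupp.single P (1 : ℤ) - Finsupp.single Q 1
  rw [smul_sub, SemilinearAut.smul_single, SemilinearAut.smul_single, hP, hQ]

end Main

end Fermat.Agent.MzCusp
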