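import Fermat.Agent.MzCusp.NonZero
import Fermat.Agent.MzCusp.Genus
import Fermat.Agent.MzCusp.Main

/-!
# The cuspidal class does not vanish modulo `ℓ`
-/

set_option autoImplicit false
set_option linter.unusedSectionVars false
set_option linter.style.haveILetI false
set_option synthInstance.maxHeartbeats 400000

noncomputable section

open ModularCurve AlgebraicCurve

attribute [-instance] Fermat.Agent.X0Places.ffField Fermat.Agent.X0Places.ffAlgebra

namespace Fermat.Agent.MzCusp

open Fermat.Agent.FunField Fermat.Agent.FunField.PlaceLemmas IntermediateField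
open Fermat.Agent.Deuring

local notation "Qb" => AlgebraicClosure ℚ

theorem genus_eq_of_RRLarge {K F : Type*} [Field K] [Field F] [Algebra K F] [IsFF K F]
    [IsAlgClosed K] {g : ℤ} (h : RRLarge K F g) (Q : Place K F) : (genusFF K F : ℤ) = g := by
  obtain ⟨c, hc⟩ := h
  obtain ⟨N, hN⟩ := exists_finrank_rr_eq (K := K) (F := F)
  have hdegQ : Q.deg = 1 := by
    have hfin : Module.Finite K Q.ResidueField := inferInstance
    exact Q.deg_eq_one_of_isAlgClosed_of_finite
  have h1 := hN (Finsupp.single Q (max N c)) (by
    rw [Divisor.degree_single, hdegQ, Nat.cast_one, mul_one]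
    exact le_max_left _ _)
  have h2 := (hc (Finsupp.single Q (max N c)) (by
    rw [Divisor.degree_single, hdegQ, Nat.cast_one, mul_one]
    exact le_max_right _ _)).2
  rw [h1, finrank_rr_zero'] at h2
  push_cast at h2
  linarith

section Main

variable {p : ℕ} [hp : Fact p.Prime] {A : ValuationSubring Qb}

theorem residue_eq_zero (A : ValuationSubring Qb) (x : A) (hx : A.valuation x < 1) :
    IsLocalRing.residue A x = 0 := by
  rw [IsLocalRing.residue_eq_zero_iff]
  exact (A.valuation_lt_one_iff x).2 hx

/-- the reduction of the class of a difference of two points -/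
theorem reductionModL_diffClass (h : ReductionInputsModL A p)
    (P Q : Place Qb (modularFunctionFieldBar p)) :
    reductionModL A p (diffClass p P Q) =
      Pic0.mk (reductionDegZeroAlong (placeReductionModL h)
        (isPlaceReductionModL_placeReductionModL h).1 (diffDiv p P Q)) :=
  reductionModL_mk h _

theorem coe_reductionDegZero_diffDiv (h : ReductionInputsModL A p)
    (P Q : Place Qb (modularFunctionFieldBar p)) :
    ((reductionDegZeroAlong (placeReductionModL h)
        (isPlaceReductionModL_placeReductionModL h).1 (diffDiv p P Q) :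
      Divisor.degZero (K := IsLocalRing.ResidueField A)
        (F := modularFunctionFieldFullC (IsLocalRing.ResidueField A) p)) :
      Divisor (IsLocalRing.ResidueField A)
        (modularFunctionFieldFullC (IsLocalRing.ResidueField A) p)) =
      Finsupp.single (placeReductionModL h P) 1 - Finsupp.single (placeReductionModL h Q) 1 := by
  rw [coe_reductionDegZeroAlong]
  show Finsupp.mapDomain (placeReductionModL h) (Finsupp.single P (1 : ℤ) - Finsupp.single Q 1) = _
  have h2 : Finsupp.mapDomain (placeReductionModL h) (Finsupp.single P (1 : ℤ) -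
      Finsupp.single Q 1) = Finsupp.mapDomain (placeReductionModL h) (Finsupp.single P (1 : ℤ)) -
      Finsupp.mapDomain (placeReductionModL h) (Finsupp.single Q 1) :=
    map_sub (Finsupp.mapDomain.addMonoidHom (placeReductionModL h)) _ _
  rw [h2, Finsupp.mapDomain_single, Finsupp.mapDomain_single]

/-- two points with the same reduction have equivalent difference mod `ℓ` -/
theorem reductionModL_diffClass_eq_zero (h : ReductionInputsModL A p)
    {P Q : Place Qb (modularFunctionFieldBar p)}
    (hPQ : placeReductionModL h P = placeReductionModL h Q) :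
    reductionModL A p (diffClass p P Q) = 0 := by
  rw [reductionModL_diffClass h, ← Pic0.mk_zero]
  congr 1
  apply Subtype.ext
  rw [coe_reductionDegZero_diffDiv, hPQ, sub_self]
  rfl

/-- the cusps of the reduction -/
def cDk (A : ValuationSubring Qb) (hpk : (p : IsLocalRing.ResidueField A) ≠ 0) :
    CuspData (IsLocalRing.ResidueField A) p
      (modularFunctionFieldFullC (IsLocalRing.ResidueField A) p) :=
  cuspData (IsLocalRing.ResidueField A) p hpk _ rfl

theorem red_cInf (h : ReductionInputsModL A p) (hpk : (p : IsLocalRing.ResidueField A) ≠ 0) :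
    placeReductionModL h (cInf p) = (cDk A hpk).inf :=
  (red_cusps (isPlaceReductionModL_placeReductionModL h) (cD p) (cDk A hpk)).1

theorem red_cZero (h : ReductionInputsModL A p) (hpk : (p : IsLocalRing.ResidueField A) ≠ 0) :
    placeReductionModL h (cZero p) = (cDk A hpk).zero :=
  (red_cusps (isPlaceReductionModL_placeReductionModL h) (cD p) (cDk A hpk)).2

/-- a place with `j(P) = a`, `j_p(P) = b`, `|b| < |a|`, `|a| > 1`, reduces to the cusp `0`. -/
theorem red_eq_cZero (h : ReductionInputsModL A p) (hpk : (p : IsLocalRing.ResidueField A) ≠ 0)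
    (P : Place Qb (modularFunctionFieldBar p)) (a b : Qb)
    (hPa : 0 < P.ord ((cD p).j - algebraMap Qb _ a))
    (hPb : 0 < P.ord ((cD p).jp - algebraMap Qb _ b))
    (ha : 1 < A.valuation a) (hba : A.valuation b < A.valuation a) :
    placeReductionModL h P = placeReductionModL h (cZero p) := by
  rw [red_cZero h hpk]
  exact red_near_zero (isPlaceReductionModL_placeReductionModL h) (cD p) (cDk A hpk)
    (residue_eq_zero A) P a b hPa hPb ha hba

/-- a place with `j(P) = a`, `j_p(P) = b`, `1 < |a| ≤ |b|`, reduces to the cusp `∞`. -/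
theorem red_eq_cInf (h : ReductionInputsModL A p) (hpk : (p : IsLocalRing.ResidueField A) ≠ 0)
    (P : Place Qb (modularFunctionFieldBar p)) (a b : Qb)
    (hPa : 0 < P.ord ((cD p).j - algebraMap Qb _ a))
    (hPb : 0 < P.ord ((cD p).jp - algebraMap Qb _ b))
    (ha : 1 < A.valuation a) (hab : A.valuation a ≤ A.valuation b) :
    placeReductionModL h P = placeReductionModL h (cInf p) := by
  rw [red_cInf h hpk]
  exact red_near_inf (isPlaceReductionModL_placeReductionModL h) (cD p) (cDk A hpk)
    (residue_eq_zero A) P a b hPa hPb ha hab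

/-- **The cuspidal class is nonzero modulo `ℓ`** if the genus of the reduction is positive. -/
theorem reductionModL_cuspClass_ne_zero' (h : ReductionInputsModL A p)
    (hpk : (p : IsLocalRing.ResidueField A) ≠ 0)
    (hg : genusFF (IsLocalRing.ResidueField A)
      (modularFunctionFieldFullC (IsLocalRing.ResidueField A) p) ≠ 0) :
    reductionModL A p (cuspClass p) ≠ 0 := by
  intro h0
  rw [cuspClass, reductionModL_diffClass h, HeckeRed.mk_eq_zero_iff', Divisor.mem_principal,
    coe_reductionDegZero_diffDiv] at h0
  refine not_isPrincipal_sub hg ?_ h0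
  rw [red_cInf h hpk, red_cZero h hpk]
  exact ((cDk A hpk).inf_ne_zero hp.out.one_lt).symm

theorem reductionModL_cuspClass_ne_zero (hG : HeckeRed.GenusEq p)
    (hp' : p ∉ ({2, 3, 5, 7, 13} : Finset ℕ)) {ℓ : ℕ} (hℓ : ℓ.Prime) (hℓp : ℓ ≠ p)
    (hA : A.LiesOverPrime ℓ) (h : ReductionInputsModL A p) :
    reductionModL A p (cuspClass p) ≠ 0 := by
  have i2 : CharP (IsLocalRing.ResidueField A) ℓ := HeckeRed.charP_residueField hℓ hA
  have hpk : (p : IsLocalRing.ResidueField A) ≠ 0 := fun h =>
    hℓp ((Nat.prime_dvd_prime_iff_eq hℓ hp.out).1 ((CharP.cast_eq_zero_iff _ ℓ p).mp h))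
  refine reductionModL_cuspClass_ne_zero' h hpk ?_
  have i1 : IsAlgClosed (IsLocalRing.ResidueField A) := HeckeRed.isAlgClosed_residueField A
  obtain ⟨g, h1, h2⟩ := hG A hpk
  have h3 : (genusFF Qb (modularFunctionFieldBar p) : ℤ) = g := genus_eq_of_RRLarge h1 (cInf p)
  have h4 := genus_eq_of_RRLarge h2 (cDk A hpk).inf
  have h5 := genusFF_ne_zero Qb iotaC hp'
  have h6 : genusFF Qb (modularFunctionFieldBar p) = genusFF Qb (modularFunctionFieldFullC Qb p) :=
    congrArg (fun E : IntermediateField Qb (LaurentSeries Qb) => genusFF Qb E)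
      (HeckeRed.laurentBaseChange_full Qb p)
  rw [← h6] at h5
  omega

end Main

end Fermat.Agent.MzCusp
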