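import Fermat.Agent.MzCusp.Places
import Fermat.Agent.HeckeRed.Degrees
import Fermat.Agent.HeckeRed.Spec

/-!
# Hecke operators on the cuspidal divisor: `T_ℓ (∞) = (ℓ+1) (∞)`, `T_ℓ (0) = (ℓ+1) (0)`
-/

set_option autoImplicit false
set_option linter.unusedSectionVars false
set_option linter.style.haveILetI false

noncomputable section

open HahnSeries WithZero IntermediateField ModularCurve AlgebraicCurve
open Fermat.Agent.ModPoly Fermat.Agent.ModDeg Fermat.Agent.FunField
  Fermat.Agent.FunField.PlaceLemmas Fermat.Agent.Cusps Fermat.Agent.HeckeRed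

namespace Fermat.Agent.MzCusp

/-- the arithmetic behind the preservation of the cusps -/
theorem arith_aux {N ℓ : ℤ} (hN : 1 < N) (hℓ : 1 < ℓ) (hne : ℓ ≠ N) {e e' : ℤ} (he : 0 < e)
    (h1 : e = ℓ * (N * e') ∨ N * e' = ℓ * e) (h2 : N * e = ℓ * e' ∨ e' = ℓ * (N * e)) :
    False := by
  have hNN : N * N ≠ 1 := by nlinarith
  rcases h1 with h1 | h1 <;> rcases h2 with h2 | h2
  · -- e = ℓ N e', N e = ℓ e'
    have he' : e' ≠ 0 := by rintro rfl; simp at h1; omega
    have h3 : ℓ * e' * (N * N - 1) = 0 := by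
      rw [h1] at h2
      linear_combination h2
    rcases mul_eq_zero.1 h3 with h4 | h4
    · rcases mul_eq_zero.1 h4 with h5 | h5
      · omega
      · exact he' h5
    · exact hNN (by linarith)
  · have h3 : e * (ℓ * N * (ℓ * N) - 1) = 0 := by
      rw [h2] at h1
      linear_combination -h1
    rcases mul_eq_zero.1 h3 with h4 | h4
    · omega
    · have : 1 < ℓ * N := by nlinarith
      nlinarith
  · have h3 : e * (N - ℓ) * (N + ℓ) = 0 := by
      have h4 : N * (N * e) = N * (ℓ * e') := by rw [h2]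
      linear_combination h4 + ℓ * h1
    rcases mul_eq_zero.1 h3 with h4 | h4
    · rcases mul_eq_zero.1 h4 with h5 | h5
      · omega
      · exact hne (by linarith)
    · linarith
  · have h3 : ℓ * e * (N * N - 1) = 0 := by
      rw [h2] at h1
      linear_combination h1
    rcases mul_eq_zero.1 h3 with h4 | h4
    · rcases mul_eq_zero.1 h4 with h5 | h5
      · omega
      · omega
    · exact hNN (by linarith)

section Dich

variable {K : Type*} [Field K] [IsAlgClosed K] {ℓ : ℕ} [hℓ : Fact ℓ.Prime]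
  {F' : Type*} [Field F'] [Algebra K F'] [IsFF K F']

/-- dichotomy at the cusps of level `ℓ` -/
theorem dich (hℓK : (ℓ : K) ≠ 0) (θ : modularFunctionFieldFullC K ℓ →ₐ[K] F') (W : Place K F')
    (h : W.ord (θ (jNF K ℓ)) < 0) :
    W.ord (θ (HeckeRed.jF K ℓ)) < 0 ∧
    (W.ord (θ (jNF K ℓ)) = ℓ * W.ord (θ (HeckeRed.jF K ℓ)) ∨
      W.ord (θ (HeckeRed.jF K ℓ)) = ℓ * W.ord (θ (jNF K ℓ))) := by
  have hθ : θ.toRingHom.IsIntegral := isIntegral_of_isFF θ
  set P := W.restrictAlong θ hθ with hP
  have e1 := Place.ord_restrictAlong θ hθ W (jNF K ℓ)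
  have e2 := Place.ord_restrictAlong θ hθ W (HeckeRed.jF K ℓ)
  rw [← hP] at e1 e2
  have he : 0 ≤ (Place.ramificationIndexAlong θ W : ℤ) := Int.natCast_nonneg _
  have hneg : P.ord (jNF K ℓ) < 0 := by
    by_contra hcon
    push Not at hcon
    rw [e1] at h
    exact absurd (mul_nonneg he hcon) (not_le.2 h)
  have hℓ1 := hℓ.out.one_lt
  have he' : 0 < (Place.ramificationIndexAlong θ W : ℤ) := by
    rcases he.lt_or_eq with h1 | h1
    · exact h1
    · rw [e1, ← h1, zero_mul] at h
      exact absurd h (lt_irrefl _)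
  rcases cusp_cases' K ℓ hℓK P hneg with h3 | h3
  · rw [h3, ord_cuspInf_jNF] at e1
    rw [h3, ord_cuspInf_jF] at e2
    refine ⟨by rw [e2]; linarith, Or.inl ?_⟩
    rw [e1, e2]; ring
  · rw [h3, ord_cuspZero_jNF] at e1
    rw [h3, ord_cuspZero_jF] at e2
    refine ⟨?_, Or.inr ?_⟩
    · rw [e2]
      have : (0 : ℤ) < ℓ := by exact_mod_cast hℓ.out.pos
      nlinarith
    · rw [e1, e2]; ring

end Dich

section Corr

variable {K : Type*} [Field K] [IsAlgClosed K] {N ℓ : ℕ} [hN : Fact N.Prime] [hℓ : Fact ℓ.Prime]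
  {E : IntermediateField K (LaurentSeries K)} {F' : Type*} [Field F'] [Algebra K F'] [IsFF K F']
  [IsFF K E]

/-- The cusps are preserved by the Hecke correspondence. -/
theorem restrictAlong_cusp (hne : ℓ ≠ N) (hℓK : (ℓ : K) ≠ 0) (C : CuspData K N E)
    (α β : E →ₐ[K] F') (θ₁ θ₂ : modularFunctionFieldFullC K ℓ →ₐ[K] F')
    (h1 : θ₁ (HeckeRed.jF K ℓ) = α C.j) (h2 : θ₁ (jNF K ℓ) = β C.j)
    (h3 : θ₂ (HeckeRed.jF K ℓ) = α C.jp) (h4 : θ₂ (jNF K ℓ) = β C.jp)
    (hα : α.toRingHom.IsIntegral) (hβ : β.toRingHom.IsIntegral) (W : Place K F') :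
    (W.restrictAlong β hβ = C.inf → W.restrictAlong α hα = C.inf) ∧
    (W.restrictAlong β hβ = C.zero → W.restrictAlong α hα = C.zero) := by
  have b1 := Place.ord_restrictAlong β hβ W C.j
  have b2 := Place.ord_restrictAlong β hβ W C.jp
  have a1 := Place.ord_restrictAlong α hα W C.j
  have a2 := Place.ord_restrictAlong α hα W C.jp
  have hβe : 0 < (Place.ramificationIndexAlong β W : ℤ) := by
    letI := algebraAlong β
    haveI := isScalarTower_along β
    haveI := isIntegral_along β hβ
    exact_mod_cast W.ramificationIndex_pos (F := E)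
  have hαe : 0 < (Place.ramificationIndexAlong α W : ℤ) := by
    letI := algebraAlong α
    haveI := isScalarTower_along α
    haveI := isIntegral_along α hα
    exact_mod_cast W.ramificationIndex_pos (F := E)
  set eα := (Place.ramificationIndexAlong α W : ℤ) with heα
  set eβ := (Place.ramificationIndexAlong β W : ℤ) with heβ
  have hN1 : (1 : ℤ) < N := by exact_mod_cast hN.out.one_lt
  have hℓ1 : (1 : ℤ) < ℓ := by exact_mod_cast hℓ.out.one_lt
  have hneZ : (ℓ : ℤ) ≠ N := by exact_mod_cast hne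
  -- general facts
  have key : ∀ P : Place K E, W.restrictAlong β hβ = P → (P = C.inf ∨ P = C.zero) →
      W.ord (β C.j) < 0 ∧ W.ord (β C.jp) < 0 := by
    intro P hP hc
    rw [b1, b2, hP]
    rcases hc with rfl | rfl
    · rw [C.ord_inf_j, C.ord_inf_jp]; constructor <;> nlinarith
    · rw [C.ord_zero_j, C.ord_zero_jp]; constructor <;> nlinarith
  have key2 : W.ord (β C.j) < 0 → W.ord (β C.jp) < 0 →
      (W.restrictAlong α hα = C.inf ∨ W.restrictAlong α hα = C.zero) ∧
      (W.ord (β C.j) = ℓ * W.ord (α C.j) ∨ W.ord (α C.j) = ℓ * W.ord (β C.j)) ∧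
      (W.ord (β C.jp) = ℓ * W.ord (α C.jp) ∨ W.ord (α C.jp) = ℓ * W.ord (β C.jp)) := by
    intro h5 h6
    obtain ⟨c1, c2⟩ := dich hℓK θ₁ W (by rw [h2]; exact h5)
    obtain ⟨d1, d2⟩ := dich hℓK θ₂ W (by rw [h4]; exact h6)
    rw [h1, h2] at c2
    rw [h3, h4] at d2
    rw [h1] at c1
    refine ⟨C.cases _ ?_, c2, d2⟩
    by_contra hcon
    push Not at hcon
    rw [a1] at c1
    exact absurd (mul_nonneg hαe.le hcon) (not_le.2 c1)
  constructor
  · intro hW
    obtain ⟨h5, h6⟩ := key _ hW (Or.inl rfl)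
    obtain ⟨h7, h8, h9⟩ := key2 h5 h6
    rcases h7 with h7 | h7
    · exact h7
    · exfalso
      rw [hW, C.ord_inf_j] at b1
      rw [hW, C.ord_inf_jp] at b2
      rw [h7, C.ord_zero_j] at a1
      rw [h7, C.ord_zero_jp] at a2
      rw [a1, b1] at h8
      rw [a2, b2] at h9
      refine arith_aux hN1 hℓ1 hneZ (e := eβ) (e' := eα) hβe ?_ ?_
      · rcases h8 with h8 | h8
        · left; linarith
        · right; linarith
      · rcases h9 with h9 | h9
        · left; linarith
        · right; linarith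
  · intro hW
    obtain ⟨h5, h6⟩ := key _ hW (Or.inr rfl)
    obtain ⟨h7, h8, h9⟩ := key2 h5 h6
    rcases h7 with h7 | h7
    · exfalso
      rw [hW, C.ord_zero_j] at b1
      rw [hW, C.ord_zero_jp] at b2
      rw [h7, C.ord_inf_j] at a1
      rw [h7, C.ord_inf_jp] at a2
      rw [a1, b1] at h8
      rw [a2, b2] at h9
      refine arith_aux hN1 hℓ1 hneZ (e := eβ) (e' := eα) hβe ?_ ?_
      · rcases h9 with h9 | h9
        · left; linarith
        · right; linarith
      · rcases h8 with h8 | h8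
        · left; linarith
        · right; linarith
    · exact h7

/-- a degree argument -/
theorem correspondence_single_eq (α β : E →ₐ[K] F') (hα : α.toRingHom.IsIntegral)
    (hβ : β.toRingHom.IsIntegral) (hβf : FiniteAlong K β) (P : Place K E)
    (h : ∀ W : Place K F', W.restrictAlong β hβ = P → W.restrictAlong α hα = P) :
    Divisor.correspondence β α hβ hα (Finsupp.single P 1) =
      Finsupp.single P (finrankAlong K β : ℤ) := by
  classical
  have hdeg1 : ∀ Q : Place K E, Q.deg = 1 := by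
    intro Q
    have hfin : Module.Finite K Q.ResidueField := inferInstance
    exact Q.deg_eq_one_of_isAlgClosed_of_finite
  have hsupp : ∀ x, x ≠ P → Divisor.correspondence β α hβ hα (Finsupp.single P 1) x = 0 := by
    intro x hx
    by_contra hcon
    obtain ⟨W, hW1, hW2⟩ := exists_of_correspondence_ne_zero β α hβ hα P x hcon
    exact hx (hW2.symm.trans (h W hW1))
  have h1 : Divisor.correspondence β α hβ hα (Finsupp.single P 1) =
      Finsupp.single P (Divisor.correspondence β α hβ hα (Finsupp.single P 1) P) := by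
    ext x
    rw [Finsupp.single_apply]
    split_ifs with hx
    · rw [hx]
    · exact hsupp x (Ne.symm hx)
  have h2 := Divisor.degree_correspondence β α hβ hα (fundamentalIdentityAlong β hβ hβf)
    (Finsupp.single P 1)
  rw [h1, Divisor.degree_single, Divisor.degree_single, hdeg1, Nat.cast_one, mul_one, mul_one] at h2
  rw [h1]
  congr 1
  rw [h2]
  ring

end Corr

section Level

variable {K : Type*} [Field K] [IsAlgClosed K] {N ℓ : ℕ} [hN : Fact N.Prime] [hℓ : Fact ℓ.Prime]

/-- `f ↦ f(q^m)` between modular function fields -/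
def qMap {M M' : ℕ} (m : ℕ) [NeZero m]
    (h : (modularFunctionFieldFullC K M).map (qExpandAlgHomC K m) ≤
      modularFunctionFieldFullC K M') :
    modularFunctionFieldFullC K M →ₐ[K] modularFunctionFieldFullC K M' :=
  ((qExpandAlgHomC K m).comp (modularFunctionFieldFullC K M).val).codRestrict
    (modularFunctionFieldFullC K M').toSubalgebra (fun x => h ⟨x, x.2, rfl⟩)

theorem coe_qMap {M M' : ℕ} (m : ℕ) [NeZero m]
    (h : (modularFunctionFieldFullC K M).map (qExpandAlgHomC K m) ≤
      modularFunctionFieldFullC K M') (x : modularFunctionFieldFullC K M) :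
    (qMap m h x : LaurentSeries K) = qExpand K m (x : LaurentSeries K) := rfl

theorem finrankAlong_prime (hne : ℓ ≠ N) (hNK : (N : K) ≠ 0) (hℓK : (ℓ : K) ≠ 0)
    {E E' : IntermediateField K (LaurentSeries K)}
    (hE : E = modularFunctionFieldFullC K N) (hE' : E' = modularFunctionFieldFullC K (N * ℓ))
    (β : E →ₐ[K] E')
    (hβ : ∀ x, (β x : LaurentSeries K) = qExpand K ℓ (x : LaurentSeries K)) :
    finrankAlong K β = ℓ + 1 := by
  have h1 := finrankAlong_beta hE hE' β hβ (by push_cast; exact mul_ne_zero hNK hℓK)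
  have h2 : dedekindPsi (N * ℓ) = (ℓ + 1) * dedekindPsi N := by
    have h3 : ¬ ℓ ∣ N := by
      rw [Nat.dvd_prime hN.out]
      push Not
      exact ⟨hℓ.out.one_lt.ne', hne⟩
    exact psi_mul_prime_of_not_dvd hℓ.out h3
  rw [h2] at h1
  exact Nat.eq_of_mul_eq_mul_right (dedekindPsi_pos N) h1

/-- **The Hecke correspondence fixes the cusps.** -/
theorem hecke_cusp (hne : ℓ ≠ N) (hNK : (N : K) ≠ 0) (hℓK : (ℓ : K) ≠ 0)
    {E E' : IntermediateField K (LaurentSeries K)}
    (hE : E = modularFunctionFieldFullC K N) (hE' : E' = modularFunctionFieldFullC K (N * ℓ))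
    (α β : E →ₐ[K] E') (hα : ∀ x, (α x : LaurentSeries K) = x)
    (hβ : ∀ x, (β x : LaurentSeries K) = qExpand K ℓ (x : LaurentSeries K))
    [HasPrincipalDivisors K E']
    (hαi : α.toRingHom.IsIntegral) (hβi : β.toRingHom.IsIntegral) (C : CuspData K N E) :
    Divisor.correspondence β α hβi hαi (Finsupp.single C.inf 1) =
      Finsupp.single C.inf ((ℓ : ℤ) + 1) ∧
    Divisor.correspondence β α hβi hαi (Finsupp.single C.zero 1) =
      Finsupp.single C.zero ((ℓ : ℤ) + 1) := by
  have hfr := finrankAlong_prime hne hNK hℓK hE hE' β hβ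
  subst hE hE'
  have hNℓ : NeZero (N * ℓ) := ⟨mul_ne_zero hN.out.ne_zero hℓ.out.ne_zero⟩
  have hle1 : modularFunctionFieldFullC K ℓ ≤ modularFunctionFieldFullC K (N * ℓ) :=
    full_degeneracyC_le K (Dvd.intro_left N rfl)
  have hle2 : (modularFunctionFieldFullC K ℓ).map (qExpandAlgHomC K N) ≤
      modularFunctionFieldFullC K (N * ℓ) := by
    have := full_degeneracyC_map_le K ℓ N
    rwa [mul_comm ℓ N] at this
  have hβf : FiniteAlong K β := finiteAlong_of_isFF β
  have hres := fun W => restrictAlong_cusp hne hℓK C α β (IntermediateField.inclusion hle1)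
    (qMap N hle2) (by
      apply Subtype.ext
      rw [hα, C.coe_j]
      rfl) (by
      apply Subtype.ext
      rw [hβ, C.coe_j]
      rfl) (by
      apply Subtype.ext
      rw [hα, C.coe_jp, coe_qMap, coe_jF]) (by
      apply Subtype.ext
      rw [hβ, C.coe_jp, coe_qMap, coe_jNF]
      rw [qExpand_qExpand, qExpand_qExpand]
      exact qExpand_congr (mul_comm _ _) _) hαi hβi W
  have e : (ℓ : ℤ) + 1 = (finrankAlong K β : ℤ) := by rw [hfr]; push_cast; rfl
  rw [e]
  exact ⟨correspondence_single_eq α β hαi hβi hβf C.inf (fun W => (hres W).1),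
    correspondence_single_eq α β hαi hβi hβf C.zero (fun W => (hres W).2)⟩

end Level

end Fermat.Agent.MzCusp
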