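import Fermat.Agent.MzCusp.DeltaQuot
import Fermat.Agent.MzCusp.Descend
import Fermat.Agent.MzCusp.Hecke
import Fermat.Agent.X0Places.Counts
import Fermat.Agent.X0Places.Degree
import Fermat.Agent.RH.Main

/-!
# The divisor of the modular unit `Δ(τ)/Δ(Nτ)` on `X₀(N)`, `N` prime, in characteristic zero
-/

set_option autoImplicit false
set_option linter.unusedSectionVars false

noncomputable section

open UpperHalfPlane Function ModularCurve Filter ModularForm AlgebraicCurve WithZero
open scoped Manifold MatrixGroups Topology ModularForm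

namespace Fermat.Agent.MzCusp

open Fermat.Agent.FunField Fermat.Agent.FunField.PlaceLemmas IntermediateField
open Fermat.Agent.X0Places Fermat.Agent.RH

section Unit

variable {L : Type*} [Field L] [Algebra ℚ L] [IsAlgClosed L] (ι : L →+* ℂ) (N : ℕ) [NeZero N]

include ι in
theorem uL_mem : uL L N ∈ FF L N := by
  have h1 : FF L N = modularFunctionFieldFullC L N := HeckeRed.laurentBaseChange_full L N
  have h2 : FF ℂ N = modularFunctionFieldFullC ℂ N := HeckeRed.laurentBaseChange_full ℂ N
  rw [h1]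
  apply mem_full_of_coeffMap ι N
  rw [coeffMap_uL, ← h2]
  exact uL_mem_complex N

/-- the modular unit -/
def uF : FF L N := ⟨uL L N, uL_mem ι N⟩

theorem coe_uF : (uF ι N : LaurentSeries L) = uL L N := rfl

theorem uF_ne_zero : uF ι N ≠ 0 := fun h => uL_ne_zero N L (congrArg Subtype.val h)

/-- the holomorphic function -/
def uHolo : Holo := ⟨uFn N (Nat.pos_of_ne_zero (NeZero.ne N)), mdiff_uFn N _⟩

theorem toMer_uF : toMer ι N (uF ι N) = algebraMap Holo Mer (uHolo N) := by
  apply toMer_of_mem (uHolo N) (isAn_uFn N _)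
  rw [coe_uF, coeffMap_uL]
  exact hasLaurent_uFn N _

theorem valHolo_eq_one {f : Holo} (τ : ℍ) (hf : (f : ℍ → ℂ) τ ≠ 0) : valHolo τ f = 1 := by
  have hf0 : f ≠ 0 := by
    rintro rfl
    exact hf rfl
  have h1 : ordH τ (f : ℍ → ℂ) = 0 := by
    by_contra h
    rw [← ne_eq, ordH_ne_zero_iff (mem_holo.1 f.2)] at h
    exact hf h
  rw [valHolo_apply τ hf0, h1]
  simp

theorem valMer_sigma_uF (τ : ℍ) (c : XN N) : valMer τ (sigma ι N c (uF ι N)) = 1 := by
  induction c using QuotientGroup.induction_on with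
  | H g =>
    rw [sigma_mk, toMer_uF, compMer_algebraMap, valMer_algebraMap]
    exact valHolo_eq_one τ (uFn_ne_zero N _ _)

/-- `u` is a unit outside the cusps -/
theorem ord_uF (P : Place L (FF L N)) (hP : 0 ≤ P.ord (jF L N)) : P.ord (uF ι N) = 0 := by
  have htr : Transcendental L (jF L N) := jF_transcendental_aux ι N
  obtain ⟨a, ha⟩ := exists_value hP htr
  obtain ⟨τ, hτ⟩ := Fermat.Agent.JInv.jInv_surjective (ι a)
  have hcard : Nat.card (XN N) = Module.finrank L⟮(embTau ι N τ a hτ).t⟯ (FF L N) := by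
    rw [embTau_t, adjoin_sub_algebraMap, finrank_jF]
  obtain ⟨x, hx⟩ := (embTau ι N τ a hτ).exists_place_eq hcard P (by rw [embTau_t]; exact ha)
  have h1 := (embTau ι N τ a hτ).w_eq x (uF_ne_zero ι N)
  have h2 : (embTau ι N τ a hτ).w ((embTau ι N τ a hτ).σ x (uF ι N)) = 1 :=
    valMer_sigma_uF ι N τ x
  rw [h2, hx, ← exp_zero, exp_inj] at h1
  have h3 := (embTau ι N τ a hτ).idx_pos x
  have h4 : (((embTau ι N τ a hτ).idx x : ℕ) : ℤ) * P.ord (uF ι N) = 0 := by linarith
  rcases mul_eq_zero.1 h4 with h5 | h5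
  · exfalso; omega
  · exact h5

end Unit

section Divisor

variable {L : Type*} [Field L] [Algebra ℚ L] [IsAlgClosed L] (ι : L →+* ℂ) (N : ℕ)
  [hN : Fact N.Prime]

include ι in
/-- **`(N-1)((0) - (∞))` is principal.** -/
theorem isPrincipal_cusp (C : CuspData L N (FF L N)) :
    Divisor.IsPrincipal (Finsupp.single C.zero ((N : ℤ) - 1) - Finsupp.single C.inf ((N : ℤ) - 1) :
      Divisor L (FF L N)) := by
  classical
  have hj : C.j = jF L N := Subtype.ext (C.coe_j.trans (X0Places.coe_jF L N).symm)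
  have hne := C.inf_ne_zero hN.out.one_lt
  have h0 : ∀ P : Place L (FF L N), P ≠ C.inf → P ≠ C.zero → P.ord (uF ι N) = 0 := by
    intro P h1 h2
    apply ord_uF ι N P
    by_contra hcon
    push Not at hcon
    rw [← hj] at hcon
    rcases C.cases P hcon with h | h
    · exact h1 h
    · exact h2 h
  have hinf : C.inf.ord (uF ι N) = 1 - N := by
    rw [C.ord_inf, coe_uF, order_uL]
  have hdiv : (divOf (uF ι N) : Divisor L (FF L N)) =
      Finsupp.single C.inf (1 - (N : ℤ)) + Finsupp.single C.zero (C.zero.ord (uF ι N)) := by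
    ext P
    rw [divOf_apply, Finsupp.add_apply, Finsupp.single_apply, Finsupp.single_apply]
    by_cases h1 : P = C.inf
    · rw [h1, if_pos rfl, if_neg (Ne.symm hne), hinf, add_zero]
    · rw [if_neg (Ne.symm h1)]
      by_cases h2 : P = C.zero
      · rw [h2, if_pos rfl, zero_add]
      · rw [if_neg (Ne.symm h2), h0 P h1 h2, add_zero]
  have hdeg1 : ∀ Q : Place L (FF L N), Q.deg = 1 := by
    intro Q
    have hfin : Module.Finite L Q.ResidueField := inferInstance
    exact Q.deg_eq_one_of_isAlgClosed_of_finite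
  have hdeg : Divisor.degree (divOf (uF ι N) : Divisor L (FF L N)) = 0 := degree_divOf _
  rw [hdiv, map_add, Divisor.degree_single, Divisor.degree_single, hdeg1, hdeg1] at hdeg
  refine ⟨uF ι N, uF_ne_zero ι N, fun P => ?_⟩
  rw [← divOf_apply, hdiv, Finsupp.sub_apply, Finsupp.add_apply]
  simp only [Finsupp.single_apply]
  split_ifs <;> push_cast at hdeg <;> linarith

end Divisor

end Fermat.Agent.MzCusp
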