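import Fermat.Agent.MzCusp.Reduction
import Fermat.Agent.Cusps.CharZero

/-!
# The cuspidal class modulo `ℓ` is nonzero if the genus is positive
-/

set_option autoImplicit false
set_option linter.unusedSectionVars false
set_option linter.style.haveILetI false

noncomputable section

open ModularCurve AlgebraicCurve

attribute [-instance] Fermat.Agent.X0Places.ffField Fermat.Agent.X0Places.ffAlgebra

namespace Fermat.Agent.MzCusp

open Fermat.Agent.FunField Fermat.Agent.FunField.PlaceLemmas IntermediateField

section General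

variable {K F : Type*} [Field K] [Field F] [Algebra K F] [IsFF K F] [IsAlgClosed K]

theorem finrank_rr_zero' : Module.finrank K (riemannRochSpace (0 : Divisor K F)) = 1 :=
  finrank_rr_zero

/-- On a curve of positive genus, distinct points are not linearly equivalent. -/
theorem not_isPrincipal_sub (hg : genusFF K F ≠ 0) {P Q : Place K F} (hPQ : P ≠ Q) :
    ¬ Divisor.IsPrincipal (Finsupp.single P 1 - Finsupp.single Q 1 : Divisor K F) := by
  classical
  rintro ⟨f, hf0, hf⟩
  have hP : P.ord f = 1 := by
    rw [← hf P, Finsupp.sub_apply, Finsupp.single_eq_same, Finsupp.single_eq_of_ne hPQ, sub_zero]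
  have hQ : Q.ord f = -1 := by
    rw [← hf Q, Finsupp.sub_apply, Finsupp.single_eq_same, Finsupp.single_eq_of_ne (Ne.symm hPQ),
      zero_sub]
  have hR : ∀ R : Place K F, R ≠ Q → 0 ≤ R.ord f := by
    intro R hR
    rw [← hf R, Finsupp.sub_apply, Finsupp.single_eq_of_ne hR, sub_zero, Finsupp.single_apply]
    split_ifs <;> norm_num
  have htr : Transcendental K f := transcendental_of_ord_ne_zero P (by rw [hP]; norm_num)
  obtain ⟨N, hN⟩ := exists_finrank_rr_eq (K := K) (F := F)
  set n : ℕ := N.toNat with hn
  have hdegQ : Q.deg = 1 := by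
    have hfin : Module.Finite K Q.ResidueField := inferInstance
    exact Q.deg_eq_one_of_isAlgClosed_of_finite
  have h1 := hN (Finsupp.single Q (n : ℤ)) (by
    rw [Divisor.degree_single, hdegQ, Nat.cast_one, mul_one, hn]
    exact Int.self_le_toNat N)
  rw [Divisor.degree_single, hdegQ, finrank_rr_zero'] at h1
  -- `1, f, ..., f^n` are in `L(nQ)`
  have hmem : ∀ i : Fin (n + 1), f ^ (i : ℕ) ∈
      riemannRochSpace (Finsupp.single Q (n : ℤ) : Divisor K F) := by
    intro i
    rw [mem_rr]
    intro R
    rw [mem_geSub_of_ne (pow_ne_zero _ hf0), ord_pow]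
    by_cases hRQ : R = Q
    · rw [hRQ, hQ, Finsupp.single_eq_same]
      have := i.2
      have h3 : ((i : ℕ) : ℤ) ≤ n := by exact_mod_cast (Nat.lt_succ_iff.1 this)
      linarith
    · rw [Finsupp.single_eq_of_ne hRQ, neg_zero]
      exact mul_nonneg (Int.natCast_nonneg _) (hR R hRQ)
  have hli : LinearIndependent K (fun i : Fin (n + 1) =>
      (⟨f ^ (i : ℕ), hmem i⟩ : riemannRochSpace (Finsupp.single Q (n : ℤ) : Divisor K F))) := by
    apply LinearIndependent.of_comp (Submodule.subtype _)
    have h2 := FunField.linearIndependent_pow_of_transcendental htr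
    exact h2.comp (fun i : Fin (n + 1) => (i : ℕ)) Fin.val_injective
  have h3 := hli.fintype_card_le_finrank
  rw [Fintype.card_fin] at h3
  have h4 : ((n + 1 : ℕ) : ℤ) ≤
      (Module.finrank K (riemannRochSpace (Finsupp.single Q (n : ℤ) : Divisor K F)) : ℤ) := by
    exact_mod_cast h3
  rw [h1] at h4
  push_cast at h4
  have h5 : (0 : ℤ) < genusFF K F := by exact_mod_cast Nat.pos_of_ne_zero hg
  linarith

end General

end Fermat.Agent.MzCusp
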