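import Fermat.Agent.MzCusp.Main
import Fermat.Agent.Deuring.Unique
import Fermat.Prelude.Def_ModularCurve_ReductionModL

/-!
# Reduction of the cusps of `X₀(N)`, `N` prime, and of points near the cusps
-/

set_option autoImplicit false
set_option linter.unusedSectionVars false
set_option linter.style.haveILetI false

noncomputable section

open ModularCurve AlgebraicCurve

attribute [-instance] Fermat.Agent.X0Places.ffField Fermat.Agent.X0Places.ffAlgebra

namespace Fermat.Agent.MzCusp

open Fermat.Agent.FunField Fermat.Agent.FunField.PlaceLemmas IntermediateField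
open Fermat.Agent.Deuring (mapDomain_mono)

section General

variable {K F : Type*} [Field K] [Field F] [Algebra K F]

theorem eq_of_le_of_degree {D E : Divisor K F} (hdeg : ∀ P : Place K F, P.deg = 1) (h : D ≤ E)
    (hd : Divisor.degree E ≤ Divisor.degree D) : D = E := by
  classical
  by_contra hne
  obtain ⟨P, hP⟩ : ∃ P, D P ≠ E P := by
    by_contra hcon
    push Not at hcon
    exact hne (Finsupp.ext hcon)
  have h1 : D + Finsupp.single P 1 ≤ E := by
    intro Q
    rw [Finsupp.add_apply, Finsupp.single_apply]
    split_ifs with hQ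
    · subst hQ
      have := h P
      omega
    · rw [add_zero]; exact h Q
  have h2 := degree_mono h1
  rw [map_add, Divisor.degree_single, hdeg] at h2
  push_cast at h2
  omega

theorem ord_lin (v : Place K F) {m : ℤ} {x y : F} (c : K) (hx : x = 0 ∨ m ≤ v.ord x)
    (hy : y = 0 ∨ m ≤ v.ord y) (hne : x - algebraMap K F c * y ≠ 0) :
    m ≤ v.ord (x - algebraMap K F c * y) := by
  by_cases hcy : algebraMap K F c * y = 0
  · rw [hcy, sub_zero] at hne ⊢
    exact hx.resolve_left hne
  have hy0 : y ≠ 0 := right_ne_zero_of_mul hcy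
  have hc0 : algebraMap K F c ≠ 0 := left_ne_zero_of_mul hcy
  have h1 : v.ord (algebraMap K F c * y) = v.ord y := by
    rw [v.ord_mul hc0 hy0, ord_algebraMap, zero_add]
  have h2 := hy.resolve_left hy0
  by_cases hx0 : x = 0
  · rw [hx0, zero_sub, ord_neg, h1]
    exact h2
  · have h3 := hx.resolve_left hx0
    have h4 := min_ord_le_ord_add v hx0 (neg_ne_zero.2 hcy) (by rwa [← sub_eq_add_neg])
    rw [← sub_eq_add_neg, ord_neg, h1] at h4
    exact (le_min h3 h2).trans h4

theorem max_ord_sub (v : Place K F) (x : F) (a : K) :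
    max (-v.ord (x - algebraMap K F a)) 0 = max (-v.ord x) 0 := by
  rcases lt_or_ge (v.ord x) 0 with h | h
  · have hx : x ≠ 0 := by
      rintro rfl
      rw [v.ord_zero] at h
      exact absurd h (lt_irrefl _)
    have h1 := ord_add_eq_of_lt v hx (g := algebraMap K F (-a)) (Or.inr (by
      rw [ord_algebraMap]; exact h))
    rw [map_neg, ← sub_eq_add_neg] at h1
    rw [h1]
  · by_cases h0 : x - algebraMap K F a = 0
    · rw [h0, v.ord_zero, neg_zero, max_self, max_eq_right (by omega)]
    · have h1 := ord_lin v (m := 0) (x := x) (y := 1) a (Or.inr h) (Or.inr (by rw [v.ord_one]))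
        (by rwa [mul_one])
      rw [mul_one] at h1
      rw [max_eq_right (by omega), max_eq_right (by omega)]

end General

section IsAlgClosedResidue

/-- The residue field of a valuation ring of an algebraically closed field is algebraically
closed. -/
instance isAlgClosed_residueField {L : Type*} [Field L] [IsAlgClosed L] (A : ValuationSubring L) :
    IsAlgClosed (IsLocalRing.ResidueField A) := by
  refine IsAlgClosed.of_exists_root _ (fun P hP hirr => ?_)
  have hl : P ∈ Polynomial.lifts (IsLocalRing.residue A) := by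
    rw [Polynomial.mem_lifts]
    exact Polynomial.map_surjective _ IsLocalRing.residue_surjective P
  obtain ⟨R, hRP, hRdeg, hRm⟩ := Polynomial.lifts_and_natDegree_eq_and_monic hl hP
  have hdeg : R.degree ≠ 0 := by
    intro h
    have h1 : R.natDegree = 0 := Polynomial.natDegree_eq_zero_iff_degree_le_zero.mpr h.le
    rw [hRdeg] at h1
    exact hirr.natDegree_pos.ne' h1
  have hinj : Function.Injective (algebraMap A L) := Subtype.val_injective
  obtain ⟨z, hz⟩ := IsAlgClosed.exists_eval₂_eq_zero_of_injective (algebraMap A L) hinj R hdeg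
  have hzint : IsIntegral A z := ⟨R, hRm, hz⟩
  obtain ⟨y, rfl⟩ := IsIntegrallyClosed.isIntegral_iff.1 hzint
  have hy : R.eval y = 0 := by
    apply hinj
    rw [map_zero, ← hz]
    exact (Polynomial.eval₂_at_apply _ y).symm
  refine ⟨IsLocalRing.residue A y, ?_⟩
  rw [← hRP, Polynomial.eval_map, Polynomial.eval₂_at_apply, hy, map_zero]

end IsAlgClosedResidue

namespace CuspData

variable {K : Type*} [Field K] {p : ℕ} [hp : Fact p.Prime] {E : IntermediateField K (LaurentSeries K)}
  (C : CuspData K p E) [IsFF K E]

theorem poleDiv_j : (poleDiv C.j : Divisor K E) =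
    Finsupp.single C.inf 1 + Finsupp.single C.zero (p : ℤ) := by
  classical
  have hne := C.inf_ne_zero hp.out.one_lt
  ext P
  rw [poleDiv_apply, Finsupp.add_apply, Finsupp.single_apply, Finsupp.single_apply]
  by_cases h1 : C.inf = P
  · subst h1
    rw [if_pos rfl, if_neg (Ne.symm hne), C.ord_inf_j]
    norm_num
  · rw [if_neg h1]
    by_cases h2 : C.zero = P
    · subst h2
      rw [if_pos rfl, C.ord_zero_j, neg_neg]
      simp
    · rw [if_neg h2, add_zero]
      apply max_eq_right
      by_contra hcon
      push Not at hcon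
      rcases C.cases P (by omega) with h | h
      · exact h1 h.symm
      · exact h2 h.symm

theorem poleDiv_jp : (poleDiv C.jp : Divisor K E) =
    Finsupp.single C.inf (p : ℤ) + Finsupp.single C.zero 1 := by
  classical
  have hne := C.inf_ne_zero hp.out.one_lt
  ext P
  rw [poleDiv_apply, Finsupp.add_apply, Finsupp.single_apply, Finsupp.single_apply]
  by_cases h1 : C.inf = P
  · subst h1
    rw [if_pos rfl, if_neg (Ne.symm hne), C.ord_inf_jp, neg_neg]
    simp
  · rw [if_neg h1]
    by_cases h2 : C.zero = P
    · subst h2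
      rw [if_pos rfl, C.ord_zero_jp]
      norm_num
    · rw [if_neg h2, add_zero]
      apply max_eq_right
      by_contra hcon
      push Not at hcon
      rcases C.cases' P (by omega) with h | h
      · exact h1 h.symm
      · exact h2 h.symm

end CuspData

section Red

variable {L : Type*} [Field L] [Algebra ℚ L] [IsAlgClosed L] {A : ValuationSubring L}
  {k : Type*} [Field k] [IsAlgClosed k] {π : A →+* k} {N : ℕ} [hN : Fact N.Prime]
  {r : Place L (laurentBaseChange L (modularFunctionFieldFull N)) →
    Place k (modularFunctionFieldFullC k N)}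
  (hr : IsPlaceReductionAlong A π N r)
  (C : CuspData L N (laurentBaseChange L (modularFunctionFieldFull N)))
  (C₁ : CuspData k N (modularFunctionFieldFullC k N))

theorem degL (P : Place L (laurentBaseChange L (modularFunctionFieldFull N))) : P.deg = 1 := by
  have hfin : Module.Finite L P.ResidueField := inferInstance
  exact P.deg_eq_one_of_isAlgClosed_of_finite

theorem degk (P : Place k (modularFunctionFieldFullC k N)) : P.deg = 1 := by
  have hfin : Module.Finite k P.ResidueField := inferInstance
  exact P.deg_eq_one_of_isAlgClosed_of_finite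

include hr in
theorem red_divOf (y : LaurentSeries A)
    (hy : coeffMap A.subtype y ∈ laurentBaseChange L (modularFunctionFieldFull N))
    (hyk : coeffMap π y ∈ modularFunctionFieldFullC k N) (hne : coeffMap π y ≠ 0) :
    Finsupp.mapDomain r (divOf (⟨coeffMap A.subtype y, hy⟩ :
      laurentBaseChange L (modularFunctionFieldFull N))) =
      divOf (⟨coeffMap π y, hyk⟩ : modularFunctionFieldFullC k N) := by
  ext Q
  have h1 := hr.2 y hy hyk hne (divOf (⟨coeffMap A.subtype y, hy⟩ :
      laurentBaseChange L (modularFunctionFieldFull N)))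
      (fun P => divOf_apply (⟨coeffMap A.subtype y, hy⟩ :
      laurentBaseChange L (modularFunctionFieldFull N)) P) Q
  exact h1.trans (divOf_apply (⟨coeffMap π y, hyk⟩ : modularFunctionFieldFullC k N) Q).symm

theorem degree_mapDomain_eq (D : Divisor L (laurentBaseChange L (modularFunctionFieldFull N))) :
    Divisor.degree (Finsupp.mapDomain r D) = Divisor.degree D :=
  degree_mapDomain_of_deg_eq (fun P => (degk (r P)).trans (degL P).symm) D

include hr in
theorem red_pole_j : Finsupp.mapDomain r (poleDiv C.j) = poleDiv C₁.j := by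
  have hjL : coeffMap A.subtype (jqModC A) = jqModC L := coeffMap_jqModC _
  have hjk : coeffMap π (jqModC A) = jqModC k := coeffMap_jqModC _
  have hy : coeffMap A.subtype (jqModC A) ∈ laurentBaseChange L (modularFunctionFieldFull N) := by
    rw [hjL, ← C.coe_j]; exact C.j.2
  have hyk : coeffMap π (jqModC A) ∈ modularFunctionFieldFullC k N := by
    rw [hjk, ← C₁.coe_j]; exact C₁.j.2
  have h1 := red_divOf hr (jqModC A) hy hyk (by rw [hjk]; exact jqModC_ne_zero_of_nontrivial k)
  have e1 : (⟨coeffMap A.subtype (jqModC A), hy⟩ :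
      laurentBaseChange L (modularFunctionFieldFull N)) = C.j :=
    Subtype.ext (hjL.trans C.coe_j.symm)
  have e2 : (⟨coeffMap π (jqModC A), hyk⟩ : modularFunctionFieldFullC k N) = C₁.j :=
    Subtype.ext (hjk.trans C₁.coe_j.symm)
  rw [e1, e2, divOf_eq_sub, divOf_eq_sub] at h1
  have h2 : Finsupp.mapDomain r (zeroDiv C.j - poleDiv C.j) =
      Finsupp.mapDomain r (zeroDiv C.j) - Finsupp.mapDomain r (poleDiv C.j) :=
    map_sub (Finsupp.mapDomain.addMonoidHom r) _ _
  rw [h2] at h1
  symm
  apply eq_of_le_of_degree degk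
  · intro Q
    have h3 := congrArg (fun D : Divisor k (modularFunctionFieldFullC k N) => D Q) h1
    simp only [Finsupp.sub_apply] at h3
    have h4 : (0 : ℤ) ≤ Finsupp.mapDomain r (zeroDiv C.j) Q := by
      have := mapDomain_mono r (D := 0) (E := zeroDiv C.j) (fun P => by
        rw [zeroDiv_apply]; exact le_max_right _ _)
      rw [Finsupp.mapDomain_zero] at this
      exact this Q
    have h5 : (0 : ℤ) ≤ Finsupp.mapDomain r (poleDiv C.j) Q := by
      have := mapDomain_mono r (D := 0) (E := poleDiv C.j) (fun P => by
        rw [poleDiv_apply]; exact le_max_right _ _)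
      rw [Finsupp.mapDomain_zero] at this
      exact this Q
    rw [zeroDiv_apply, poleDiv_apply] at h3
    rw [poleDiv_apply]
    rcases le_total (Q.ord C₁.j) 0 with h6 | h6
    · rw [max_eq_right h6, max_eq_left (by omega)] at h3
      rw [max_eq_left (by omega)]
      omega
    · rw [max_eq_right (by omega)]
      exact h5
  · rw [degree_mapDomain_eq, C.poleDiv_j, C₁.poleDiv_j, map_add, map_add, Divisor.degree_single,
      Divisor.degree_single, Divisor.degree_single, Divisor.degree_single, degL C.inf,
      degL C.zero, degk C₁.inf, degk C₁.zero]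

include hr in
/-- **Reduction of the cusps.** -/
theorem red_cusps : r C.inf = C₁.inf ∧ r C.zero = C₁.zero := by
  classical
  have h1 := red_pole_j hr C C₁
  have hN1 : (1 : ℤ) < N := by exact_mod_cast hN.out.one_lt
  have hne := C₁.inf_ne_zero hN.out.one_lt
  rw [C.poleDiv_j, C₁.poleDiv_j, Finsupp.mapDomain_add, Finsupp.mapDomain_single,
    Finsupp.mapDomain_single] at h1
  have h2 := congrArg (fun D : Divisor k (modularFunctionFieldFullC k N) => D C₁.inf) h1
  have h3 := congrArg (fun D : Divisor k (modularFunctionFieldFullC k N) => D C₁.zero) h1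
  simp only [Finsupp.add_apply, Finsupp.single_apply, if_pos, if_neg hne, if_neg (Ne.symm hne)]
    at h2 h3
  have h4 : r C.zero = C₁.zero := by
    by_contra hcon
    rw [if_neg hcon] at h3
    split_ifs at h3 <;> omega
  refine ⟨?_, h4⟩
  by_contra hcon
  rw [if_neg hcon] at h2
  rw [h4, if_neg (Ne.symm hne)] at h2
  omega

include hr in
theorem red_zero (y : LaurentSeries A) (f : laurentBaseChange L (modularFunctionFieldFull N))
    (f₁ : modularFunctionFieldFullC k N) (hf : (f : LaurentSeries L) = coeffMap A.subtype y)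
    (hf₁ : (f₁ : LaurentSeries k) = coeffMap π y) (hne : f₁ ≠ 0)
    (P : Place L (laurentBaseChange L (modularFunctionFieldFull N))) (hP : 0 < P.ord f) :
    1 ≤ Finsupp.mapDomain r (poleDiv f) (r P) + (r P).ord f₁ := by
  classical
  have hy : coeffMap A.subtype y ∈ laurentBaseChange L (modularFunctionFieldFull N) := hf ▸ f.2
  have hyk : coeffMap π y ∈ modularFunctionFieldFullC k N := hf₁ ▸ f₁.2
  have e1 : (⟨coeffMap A.subtype y, hy⟩ : laurentBaseChange L (modularFunctionFieldFull N)) = f :=
    Subtype.ext hf.symm
  have e2 : (⟨coeffMap π y, hyk⟩ : modularFunctionFieldFullC k N) = f₁ := Subtype.ext hf₁.symm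
  have h1 := red_divOf hr y hy hyk (by
    intro h
    apply hne
    apply Subtype.ext
    rw [hf₁, h]
    rfl)
  rw [e1, e2, divOf_eq_sub] at h1
  have h2 : Finsupp.mapDomain r (zeroDiv f - poleDiv f) =
      Finsupp.mapDomain r (zeroDiv f) - Finsupp.mapDomain r (poleDiv f) :=
    map_sub (Finsupp.mapDomain.addMonoidHom r) _ _
  rw [h2] at h1
  have h3 := congrArg (fun D : Divisor k (modularFunctionFieldFullC k N) => D (r P)) h1
  simp only [Finsupp.sub_apply] at h3
  rw [divOf_apply] at h3
  have h4 : Finsupp.single P 1 ≤ (zeroDiv f :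
      Divisor L (laurentBaseChange L (modularFunctionFieldFull N))) := by
    intro Q
    rw [Finsupp.single_apply, zeroDiv_apply]
    split_ifs with hQ
    · subst hQ
      exact le_max_of_le_left hP
    · exact le_max_right _ _
  have h5 := mapDomain_mono r h4 (r P)
  rw [Finsupp.mapDomain_single, Finsupp.single_eq_same] at h5
  omega

theorem C_coe_sub (F₀ : IntermediateField L (LaurentSeries L)) (c : L) :
    ((algebraMap L F₀ c : F₀) : LaurentSeries L) = HahnSeries.single 0 c := by
  rw [← algebraMap_laurentSeries_eq_single]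
  rfl

include hr in
/-- a place with `j(P) = a`, `|a| > 1`, reduces to a cusp -/
theorem red_near_cusp (hπ : ∀ x : A, A.valuation x < 1 → π x = 0)
    (P : Place L (laurentBaseChange L (modularFunctionFieldFull N))) (a : L)
    (hPa : 0 < P.ord (C.j - algebraMap L _ a)) (ha : 1 < A.valuation a) :
    r P = C₁.inf ∨ r P = C₁.zero := by
  classical
  have ha0 : a ≠ 0 := by
    rintro rfl
    rw [map_zero] at ha
    exact absurd ha (not_lt.2 zero_le)
  have hai : A.valuation a⁻¹ < 1 := by
    rw [map_inv₀]
    exact inv_lt_one_of_one_lt₀ ha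
  have haA : a⁻¹ ∈ A := (A.valuation_le_one_iff _).1 hai.le
  set f : laurentBaseChange L (modularFunctionFieldFull N) :=
    algebraMap L _ a⁻¹ * (C.j - algebraMap L _ a) with hf
  have hC0 : algebraMap L (laurentBaseChange L (modularFunctionFieldFull N)) a⁻¹ ≠ 0 := by
    simpa using ha0
  have hja : C.j - algebraMap L (laurentBaseChange L (modularFunctionFieldFull N)) a ≠ 0 := by
    intro h
    rw [h, P.ord_zero] at hPa
    exact absurd hPa (lt_irrefl _)
  have hordf : ∀ Q : Place L (laurentBaseChange L (modularFunctionFieldFull N)),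
      Q.ord f = Q.ord (C.j - algebraMap L _ a) := by
    intro Q
    rw [hf, Q.ord_mul hC0 hja, ord_algebraMap, zero_add]
  have key := red_zero hr (HahnSeries.single 0 (⟨a⁻¹, haA⟩ : A) * jqModC A - 1) f (-1)
    (by
      rw [map_sub, map_mul, coeffMap_single, coeffMap_jqModC, map_one, hf, mul_sub]
      rw [← map_mul, inv_mul_cancel₀ ha0, map_one]
      show ((algebraMap L (laurentBaseChange L (modularFunctionFieldFull N)) a⁻¹ :
        laurentBaseChange L (modularFunctionFieldFull N)) : LaurentSeries L) *
        (C.j : LaurentSeries L) - 1 = _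
      rw [C_coe_sub, C.coe_j]
      rfl)
    (by
      rw [map_sub, map_mul, coeffMap_single, hπ _ hai, HahnSeries.single_eq_zero, zero_mul,
        map_one, zero_sub]
      rfl)
    (by simp) P (by rw [hordf]; exact hPa)
  have hord1 : (r P).ord (-1 : modularFunctionFieldFullC k N) = 0 := by
    have h1 : (-1 : modularFunctionFieldFullC k N) = algebraMap k _ (-1) := by
      rw [map_neg, map_one]
    rw [h1, ord_algebraMap]
  rw [hord1, add_zero] at key
  have hpole : (poleDiv f : Divisor L (laurentBaseChange L (modularFunctionFieldFull N))) =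
      poleDiv C.j := by
    ext Q
    rw [poleDiv_apply, poleDiv_apply, hordf, max_ord_sub]
  rw [hpole, red_pole_j hr C C₁, poleDiv_apply] at key
  apply C₁.cases
  by_contra hcon
  push Not at hcon
  rw [max_eq_right (by omega)] at key
  omega

theorem poleDiv_lin_le (f : laurentBaseChange L (modularFunctionFieldFull N))
    (hf : ∀ (Q : Place L (laurentBaseChange L (modularFunctionFieldFull N))) (m : ℤ), m ≤ 0 →
      m ≤ Q.ord C.j → m ≤ Q.ord C.jp → m ≤ Q.ord f) :
    (poleDiv f : Divisor L (laurentBaseChange L (modularFunctionFieldFull N))) ≤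
      Finsupp.single C.inf (N : ℤ) + Finsupp.single C.zero (N : ℤ) := by
  classical
  have hN1 : (1 : ℤ) < N := by exact_mod_cast hN.out.one_lt
  intro Q
  rw [poleDiv_apply, Finsupp.add_apply, Finsupp.single_apply, Finsupp.single_apply]
  by_cases h1 : C.inf = Q
  · subst h1
    have := hf C.inf (-N) (by omega) (by rw [C.ord_inf_j]; omega) (by rw [C.ord_inf_jp])
    rw [if_pos rfl]
    split_ifs <;> refine max_le (by omega) (by omega)
  · rw [if_neg h1]
    by_cases h2 : C.zero = Q
    · subst h2
      have := hf C.zero (-N) (by omega) (by rw [C.ord_zero_j]) (by rw [C.ord_zero_jp]; omega)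
      rw [if_pos rfl]
      refine max_le (by omega) (by omega)
    · rw [if_neg h2]
      have h3 : 0 ≤ Q.ord C.j := by
        by_contra hcon
        push Not at hcon
        rcases C.cases Q hcon with h | h
        · exact h1 h.symm
        · exact h2 h.symm
      have h4 : 0 ≤ Q.ord C.jp := by
        by_contra hcon
        push Not at hcon
        rcases C.cases' Q hcon with h | h
        · exact h1 h.symm
        · exact h2 h.symm
      have := hf Q 0 le_rfl h3 h4
      refine max_le (by omega) (by omega)

include hr in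
/-- `|b| < |a|`, `|a| > 1`: the place reduces to the cusp `0` -/
theorem red_near_zero (hπ : ∀ x : A, A.valuation x < 1 → π x = 0)
    (P : Place L (laurentBaseChange L (modularFunctionFieldFull N))) (a b : L)
    (hPa : 0 < P.ord (C.j - algebraMap L _ a)) (hPb : 0 < P.ord (C.jp - algebraMap L _ b))
    (ha : 1 < A.valuation a) (hba : A.valuation b < A.valuation a) :
    r P = C₁.zero := by
  classical
  rcases red_near_cusp hr C C₁ hπ P a hPa ha with h | h
  swap
  · exact h
  exfalso
  have hN1 : (1 : ℤ) < N := by exact_mod_cast hN.out.one_lt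
  have ha0 : a ≠ 0 := by
    rintro rfl
    rw [map_zero] at ha
    exact absurd ha (not_lt.2 zero_le)
  set c : L := b / a with hc
  have hcv : A.valuation c < 1 := by
    rw [hc, map_div₀]
    exact (div_lt_one₀ (zero_lt_iff.2 (by simpa using ha0))).2 hba
  have hcA : c ∈ A := (A.valuation_le_one_iff _).1 hcv.le
  set f : laurentBaseChange L (modularFunctionFieldFull N) := C.jp - algebraMap L _ c * C.j with hf
  have hj0 : C.j ≠ 0 := by
    intro h0
    have := C.ord_inf_j
    rw [h0, C.inf.ord_zero] at this
    omega
  have hjp0 : C.jp ≠ 0 := by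
    intro h0
    have := C.ord_inf_jp
    rw [h0, C.inf.ord_zero] at this
    omega
  have hf0 : f ≠ 0 := by
    intro h0
    have h1 := ord_add_eq_of_lt C.inf hjp0 (g := -(algebraMap L _ c * C.j)) (by
      by_cases hc0 : c = 0
      · left; rw [hc0, map_zero, zero_mul, neg_zero]
      · right
        rw [ord_neg, C.inf.ord_mul (by simpa using hc0) hj0, ord_algebraMap, C.ord_inf_j,
          C.ord_inf_jp]
        omega)
    rw [← sub_eq_add_neg, ← hf, h0, C.inf.ord_zero, C.ord_inf_jp] at h1
    omega
  have hPf : 0 < P.ord f := by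
    have e1 : f = (C.jp - algebraMap L _ b) - algebraMap L _ c * (C.j - algebraMap L _ a) := by
      have e2 : algebraMap L (laurentBaseChange L (modularFunctionFieldFull N)) b =
          algebraMap L _ c * algebraMap L _ a := by
        rw [← map_mul, hc, div_mul_cancel₀ _ ha0]
      rw [hf, mul_sub, ← e2]
      ring
    rw [e1]
    have := ord_lin P (m := 1) c (x := C.jp - algebraMap L _ b) (y := C.j - algebraMap L _ a)
      (Or.inr hPb) (Or.inr hPa) (by rw [← e1]; exact hf0)
    omega
  have hjp1 : C₁.jp ≠ 0 := by
    intro h0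
    have := C₁.ord_inf_jp
    rw [h0, C₁.inf.ord_zero] at this
    omega
  have key := red_zero hr (qExpand A N (jqModC A) - HahnSeries.single 0 (⟨c, hcA⟩ : A) * jqModC A)
    f C₁.jp
    (by
      rw [map_sub, map_mul, coeffMap_single, coeffMap_jqModC, ModularCurve.coeffMap_qExpand,
        coeffMap_jqModC, hf]
      show (C.jp : LaurentSeries L) -
        ((algebraMap L (laurentBaseChange L (modularFunctionFieldFull N)) c :
        laurentBaseChange L (modularFunctionFieldFull N)) : LaurentSeries L) *
        (C.j : LaurentSeries L) = _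
      rw [C_coe_sub, C.coe_j, C.coe_jp]
      rfl)
    (by
      rw [map_sub, map_mul, coeffMap_single, hπ _ hcv, HahnSeries.single_eq_zero, zero_mul,
        sub_zero, ModularCurve.coeffMap_qExpand, coeffMap_jqModC, C₁.coe_jp])
    hjp1 P hPf
  have hle := mapDomain_mono r (poleDiv_lin_le C f (by
    intro Q m hm h1 h2
    exact ord_lin Q c (Or.inr h2) (Or.inr h1) hf0)) (r P)
  rw [Finsupp.mapDomain_add, Finsupp.mapDomain_single, Finsupp.mapDomain_single,
    (red_cusps hr C C₁).1, (red_cusps hr C C₁).2, h, Finsupp.add_apply, Finsupp.single_eq_same,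
    Finsupp.single_eq_of_ne (C₁.inf_ne_zero hN.out.one_lt), add_zero] at hle
  rw [h, C₁.ord_inf_jp] at key
  omega

include hr in
/-- `|a| ≤ |b|`, `|a| > 1`: the place reduces to the cusp `∞` -/
theorem red_near_inf (hπ : ∀ x : A, A.valuation x < 1 → π x = 0)
    (P : Place L (laurentBaseChange L (modularFunctionFieldFull N))) (a b : L)
    (hPa : 0 < P.ord (C.j - algebraMap L _ a)) (hPb : 0 < P.ord (C.jp - algebraMap L _ b))
    (ha : 1 < A.valuation a) (hab : A.valuation a ≤ A.valuation b) :
    r P = C₁.inf := by
  classical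
  rcases red_near_cusp hr C C₁ hπ P a hPa ha with h | h
  · exact h
  exfalso
  have hN1 : (1 : ℤ) < N := by exact_mod_cast hN.out.one_lt
  have hb0 : b ≠ 0 := by
    rintro rfl
    rw [map_zero] at hab
    exact absurd (ha.trans_le hab) (not_lt.2 zero_le)
  set c : L := a / b with hc
  have hcv : A.valuation c ≤ 1 := by
    rw [hc, map_div₀]
    exact (div_le_one₀ (zero_lt_iff.2 (by simpa using hb0))).2 hab
  have hcA : c ∈ A := (A.valuation_le_one_iff _).1 hcv
  set f : laurentBaseChange L (modularFunctionFieldFull N) := C.j - algebraMap L _ c * C.jp with hf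
  set f₁ : modularFunctionFieldFullC k N := C₁.j - algebraMap k _ (π ⟨c, hcA⟩) * C₁.jp with hf₁
  have hj0 : C.j ≠ 0 := by
    intro h0
    have := C.ord_inf_j
    rw [h0, C.inf.ord_zero] at this
    omega
  have hjp0 : C.jp ≠ 0 := by
    intro h0
    have := C.ord_inf_jp
    rw [h0, C.inf.ord_zero] at this
    omega
  have hj1 : C₁.j ≠ 0 := by
    intro h0
    have := C₁.ord_inf_j
    rw [h0, C₁.inf.ord_zero] at this
    omega
  have hjp1 : C₁.jp ≠ 0 := by
    intro h0
    have := C₁.ord_inf_jp
    rw [h0, C₁.inf.ord_zero] at this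
    omega
  have hf0 : f ≠ 0 := by
    intro h0
    have h1 := ord_add_eq_of_lt C.zero hj0 (g := -(algebraMap L _ c * C.jp)) (by
      by_cases hc0 : c = 0
      · left; rw [hc0, map_zero, zero_mul, neg_zero]
      · right
        rw [ord_neg, C.zero.ord_mul (by simpa using hc0) hjp0, ord_algebraMap, C.ord_zero_j,
          C.ord_zero_jp]
        omega)
    rw [← sub_eq_add_neg, ← hf, h0, C.zero.ord_zero, C.ord_zero_j] at h1
    omega
  have hf1ord : C₁.zero.ord f₁ = -N := by
    have h1 := ord_add_eq_of_lt C₁.zero hj1 (g := -(algebraMap k _ (π ⟨c, hcA⟩) * C₁.jp)) (by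
      by_cases hc0 : π ⟨c, hcA⟩ = 0
      · left; rw [hc0, map_zero, zero_mul, neg_zero]
      · right
        rw [ord_neg, C₁.zero.ord_mul (by simpa using hc0) hjp1, ord_algebraMap, C₁.ord_zero_j,
          C₁.ord_zero_jp]
        omega)
    rw [← sub_eq_add_neg, ← hf₁, C₁.ord_zero_j] at h1
    exact h1
  have hf1 : f₁ ≠ 0 := by
    intro h0
    rw [h0, C₁.zero.ord_zero] at hf1ord
    omega
  have hPf : 0 < P.ord f := by
    have e1 : f = (C.j - algebraMap L _ a) - algebraMap L _ c * (C.jp - algebraMap L _ b) := by
      have e2 : algebraMap L (laurentBaseChange L (modularFunctionFieldFull N)) a =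
          algebraMap L _ c * algebraMap L _ b := by
        rw [← map_mul, hc, div_mul_cancel₀ _ hb0]
      rw [hf, mul_sub, ← e2]
      ring
    rw [e1]
    have := ord_lin P (m := 1) c (x := C.j - algebraMap L _ a) (y := C.jp - algebraMap L _ b)
      (Or.inr hPa) (Or.inr hPb) (by rw [← e1]; exact hf0)
    omega
  have key := red_zero hr (jqModC A - HahnSeries.single 0 (⟨c, hcA⟩ : A) * qExpand A N (jqModC A))
    f f₁
    (by
      rw [map_sub, map_mul, coeffMap_single, coeffMap_jqModC, ModularCurve.coeffMap_qExpand,
        coeffMap_jqModC, hf]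
      show (C.j : LaurentSeries L) -
        ((algebraMap L (laurentBaseChange L (modularFunctionFieldFull N)) c :
        laurentBaseChange L (modularFunctionFieldFull N)) : LaurentSeries L) *
        (C.jp : LaurentSeries L) = _
      rw [C_coe_sub, C.coe_j, C.coe_jp]
      rfl)
    (by
      rw [map_sub, map_mul, coeffMap_single, ModularCurve.coeffMap_qExpand, coeffMap_jqModC, hf₁]
      show (C₁.j : LaurentSeries k) - algebraMap k (LaurentSeries k) (π ⟨c, hcA⟩) *
        (C₁.jp : LaurentSeries k) = _
      rw [algebraMap_laurentSeries_eq_single, C₁.coe_j, C₁.coe_jp])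
    hf1 P hPf
  have hle := mapDomain_mono r (poleDiv_lin_le C f (by
    intro Q m hm h1 h2
    exact ord_lin Q c (Or.inr h1) (Or.inr h2) hf0)) (r P)
  rw [Finsupp.mapDomain_add, Finsupp.mapDomain_single, Finsupp.mapDomain_single,
    (red_cusps hr C C₁).1, (red_cusps hr C C₁).2, h, Finsupp.add_apply,
    Finsupp.single_eq_same, Finsupp.single_eq_of_ne (Ne.symm (C₁.inf_ne_zero hN.out.one_lt)),
    zero_add] at hle
  rw [h, hf1ord] at key
  omega

end Red

end Fermat.Agent.MzCusp
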